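import Mathlib.Data.List.GetD
import Mathlib.Data.Set.Function
import Mathlib.Logic.Function.Basic
import Mathlib.Algebra.Group.Even
import Mathlib.Algebra.Group.Nat.Even
import Mathlib.Tactic.Choose
import Mathlib.Tactic

/-!
# Infinite games of perfect information and the theorem of Gale and Stewart
-/

set_option autoImplicit false

universe u v

namespace FA.Determinacy

variable {A : Type u}

/-- The first `n` moves of a play. -/
def pre (x : ℕ → A) (n : ℕ) : List A :=
  (List.range n).map x

@[simp] theorem pre_zero (x : ℕ → A) : pre x 0 = [] := rfl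

@[simp] theorem length_pre (x : ℕ → A) (n : ℕ) : (pre x n).length = n := by simp [pre]

theorem pre_succ (x : ℕ → A) (n : ℕ) : pre x (n + 1) = pre x n ++ [x n] := by
  simp [pre, List.range_succ]

theorem pre_prefix (x : ℕ → A) {m n : ℕ} (h : m ≤ n) : pre x m <+: pre x n := by
  induction h with
  | refl => exact List.prefix_refl _
  | step _ ih => exact ih.trans (pre_succ x _ ▸ List.prefix_append _ _)

theorem take_pre (x : ℕ → A) {m n : ℕ} (h : m ≤ n) : (pre x n).take m = pre x m := by
  have := List.prefix_iff_eq_take.1 (pre_prefix x h)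
  rw [length_pre] at this
  exact this.symm

theorem map_pre {B : Type v} (f : A → B) (x : ℕ → A) (n : ℕ) :
    (pre x n).map f = pre (f ∘ x) n := by
  simp [pre]

theorem pre_succ_inj {x : ℕ → A} {n : ℕ} {a : A} (h : pre x (n + 1) = pre x n ++ [a]) :
    x n = a := by
  rw [pre_succ, List.append_cancel_left_eq] at h
  simpa using h

/-- A game tree: every position can be continued. -/
structure GameTree (A : Type u) : Type u where
  /-- The positions. -/
  carrier : Set (List A)
  nil_mem' : [] ∈ carrier
  mem_of_prefix' : ∀ ⦃p q : List A⦄, p <+: q → q ∈ carrier → p ∈ carrier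
  exists_child' : ∀ p ∈ carrier, ∃ a, p ++ [a] ∈ carrier

namespace GameTree

instance : Membership (List A) (GameTree A) := ⟨fun T p => p ∈ T.carrier⟩

theorem nil_mem (T : GameTree A) : [] ∈ T := T.nil_mem'

theorem mem_of_prefix (T : GameTree A) {p q : List A} (h : p <+: q) (hq : q ∈ T) : p ∈ T :=
  T.mem_of_prefix' h hq

theorem exists_child (T : GameTree A) {p : List A} (hp : p ∈ T) : ∃ a, p ++ [a] ∈ T :=
  T.exists_child' p hp

theorem take_mem (T : GameTree A) {p : List A} (hp : p ∈ T) (n : ℕ) : p.take n ∈ T :=
  T.mem_of_prefix (List.take_prefix n p) hp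

theorem mem_of_append (T : GameTree A) {p q : List A} (h : p ++ q ∈ T) : p ∈ T :=
  T.mem_of_prefix (List.prefix_append p q) h

theorem nonempty (T : GameTree A) : Nonempty A :=
  ⟨(T.exists_child T.nil_mem).choose⟩

/-- The plays of a tree. -/
def body (T : GameTree A) : Set (ℕ → A) :=
  {x | ∀ n, pre x n ∈ T}

/-- The tree of all positions. -/
def univ (A : Type u) [Nonempty A] : GameTree A :=
  ⟨Set.univ, trivial, fun _ _ _ _ => trivial, fun _ _ => ⟨Classical.arbitrary A, trivial⟩⟩

theorem body_univ [Nonempty A] : (univ A).body = Set.univ :=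
  Set.eq_univ_of_forall fun _ _ => trivial

end GameTree

/-- Player `P` (`true`: the first) moves at positions of length `n`. -/
def Moves (P : Bool) (n : ℕ) : Prop :=
  Even n ↔ P = true

theorem moves_not {P : Bool} {n : ℕ} : Moves (!P) n ↔ ¬Moves P n := by
  unfold Moves
  cases P <;> simp

theorem moves_succ {P : Bool} {n : ℕ} : Moves P (n + 1) ↔ ¬Moves P n := by
  unfold Moves
  cases P <;> simp [Nat.even_add_one]

/-- A strategy: legal where the player moves. -/
def IsStrategy (T : GameTree A) (P : Bool) (σ : List A → A) : Prop :=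
  ∀ p ∈ T, Moves P p.length → p ++ [σ p] ∈ T

/-- A play following a strategy. -/
def Consistent (P : Bool) (σ : List A → A) (x : ℕ → A) : Prop :=
  ∀ n, Moves P n → x n = σ (pre x n)

/-- A winning strategy. -/
def Wins (T : GameTree A) (X : Set (ℕ → A)) (P : Bool) (σ : List A → A) : Prop :=
  IsStrategy T P σ ∧ ∀ x ∈ T.body, Consistent P σ x → (x ∈ X ↔ P = true)

/-- One of the players has a winning strategy. -/
def Determined (T : GameTree A) (X : Set (ℕ → A)) : Prop :=
  ∃ (P : Bool) (σ : List A → A), Wins T X P σ

/-- Some legal strategy. -/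
noncomputable def someMove (T : GameTree A) (p : List A) : A :=
  have := T.nonempty
  Classical.epsilon fun a => p ++ [a] ∈ T

theorem someMove_mem (T : GameTree A) {p : List A} (hp : p ∈ T) : p ++ [someMove T p] ∈ T :=
  Classical.epsilon_spec (T.exists_child hp)

theorem isStrategy_someMove (T : GameTree A) (P : Bool) : IsStrategy T P (someMove T) :=
  fun _ hp _ => someMove_mem T hp

/-- From `p`, player `P` can force the play through `U`. -/
def CanForce (T : GameTree A) (P : Bool) (U : Set (List A)) (p : List A) : Prop :=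
  ∃ σ, IsStrategy T P σ ∧ ∀ x ∈ T.body, pre x p.length = p →
    (∀ n, p.length ≤ n → Moves P n → x n = σ (pre x n)) → ∃ n, pre x n ∈ U

variable {T : GameTree A} {P : Bool} {U : Set (List A)} {p : List A}

theorem canForce_of_mem (h : p ∈ U) : CanForce T P U p :=
  ⟨someMove T, isStrategy_someMove T P, fun _ _ hx _ => ⟨p.length, by rwa [hx]⟩⟩

theorem canForce_of_own (hm : Moves P p.length) {a : A} (ha : p ++ [a] ∈ T)
    (h : CanForce T P U (p ++ [a])) : CanForce T P U p := by
  classical
  obtain ⟨σ, hσ, hwin⟩ := h
  refine ⟨Function.update σ p a, fun q hq hmq => ?_, fun x hx hxp hcons => hwin x hx ?_ ?_⟩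
  · by_cases h : q = p
    · rw [h, Function.update_self]
      exact ha
    · rw [Function.update_of_ne h]
      exact hσ q hq hmq
  · have := hcons p.length le_rfl hm
    rw [hxp, Function.update_self] at this
    rw [List.length_append, List.length_singleton, pre_succ, hxp, this]
  · intro n hn hmn
    rw [List.length_append, List.length_singleton] at hn
    rw [hcons n (by omega) hmn, Function.update_of_ne]
    intro h
    have := congrArg List.length h
    rw [length_pre] at this
    omega

theorem canForce_of_forall
    (h : ∀ a, p ++ [a] ∈ T → CanForce T P U (p ++ [a])) : CanForce T P U p := by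
  classical
  have hex : ∀ a, ∃ σ, IsStrategy T P σ ∧ (p ++ [a] ∈ T → ∀ x ∈ T.body,
      pre x (p ++ [a]).length = p ++ [a] →
        (∀ n, (p ++ [a]).length ≤ n → Moves P n → x n = σ (pre x n)) → ∃ n, pre x n ∈ U) :=
    fun a => by
    by_cases ha : p ++ [a] ∈ T
    · exact (h a ha).imp fun σ hσ => ⟨hσ.1, fun _ => hσ.2⟩
    · exact ⟨someMove T, isStrategy_someMove T P, fun h' => absurd h' ha⟩
  choose σ hσ hwin using hex
  let pick : List A → List A → A := fun q =>
    if hq : p.length < q.length then σ (q[p.length]) else someMove T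
  refine ⟨fun q => pick q q, fun q hq hmq => ?_, fun x hx hxp hcons => ?_⟩
  · simp only [pick]
    split_ifs with hlen
    exacts [hσ _ q hq hmq, someMove_mem T hq]
  · have hp1 : pre x (p.length + 1) = p ++ [x p.length] := by rw [pre_succ, hxp]
    refine hwin (x p.length) (hp1 ▸ hx _) x hx (by simpa using hp1) fun n hn hmn => ?_
    rw [List.length_append, List.length_singleton] at hn
    rw [hcons n (by omega) hmn]
    simp only [pick, length_pre, dif_pos (show p.length < n by omega)]
    congr 1
    simp [pre]

theorem not_canForce_child (hm : Moves P p.length) (h : ¬CanForce T P U p) {a : A}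
    (ha : p ++ [a] ∈ T) : ¬CanForce T P U (p ++ [a]) :=
  fun h' => h (canForce_of_own hm ha h')

theorem exists_not_canForce_child (h : ¬CanForce T P U p) :
    ∃ a, p ++ [a] ∈ T ∧ ¬CanForce T P U (p ++ [a]) := by
  by_contra! hall
  exact h (canForce_of_forall hall)

/-- A payoff that is a union of cylinders within the tree. -/
def IsOpenOn (T : GameTree A) (X : Set (ℕ → A)) : Prop :=
  ∀ x ∈ T.body, x ∈ X → ∃ n, ∀ y ∈ T.body, pre y n = pre x n → y ∈ X

/-- Open and closed within the tree. -/
def IsClopenOn (T : GameTree A) (X : Set (ℕ → A)) : Prop :=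
  IsOpenOn T X ∧ IsOpenOn T Xᶜ

/-- The positions all of whose plays are in `X`. -/
def securedSet (T : GameTree A) (X : Set (ℕ → A)) : Set (List A) :=
  {p | ∀ x ∈ T.body, pre x p.length = p → x ∈ X}

theorem securedSet_mono {X : Set (ℕ → A)} {p q : List A} (hp : p ∈ securedSet T X)
    (hpq : p <+: q) : q ∈ securedSet T X := fun x hx hxq => hp x hx (by
  rw [← take_pre x hpq.length_le, hxq]
  exact (List.prefix_iff_eq_take.1 hpq).symm)

theorem IsOpenOn.mem_iff {X : Set (ℕ → A)} (h : IsOpenOn T X) {x : ℕ → A} (hx : x ∈ T.body) :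
    x ∈ X ↔ ∃ n, pre x n ∈ securedSet T X :=
  ⟨fun hX => (h x hx hX).imp fun n hn y hy hyn => hn y hy (by rwa [length_pre] at hyn),
    fun ⟨n, hn⟩ => hn x hx (by rw [length_pre])⟩

/-- A player for whom the payoff is open wins or the other does. -/
theorem determined_of_isOpenOn {X : Set (ℕ → A)} (P : Bool)
    (h : IsOpenOn T {x | x ∈ X ↔ P = true}) : Determined T X := by
  classical
  set Y := {x | x ∈ X ↔ P = true}
  by_cases hcf : CanForce T P (securedSet T Y) []
  · obtain ⟨σ, hσ, hwin⟩ := hcf
    exact ⟨P, σ, hσ, fun x hx hcons => (h.mem_iff hx).2 (hwin x hx rfl fun n _ => hcons n)⟩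
  let τ : List A → A := fun q =>
    if hq : ∃ a, q ++ [a] ∈ T ∧ ¬CanForce T P (securedSet T Y) (q ++ [a]) then hq.choose
    else someMove T q
  refine ⟨!P, τ, fun q hq _ => ?_, fun x hx hcons => ?_⟩
  · simp only [τ]
    split_ifs with hex
    exacts [hex.choose_spec.1, someMove_mem T hq]
  · have key : ∀ n, ¬CanForce T P (securedSet T Y) (pre x n) := fun n => by
      induction n with
      | zero => simpa using hcf
      | succ n ih =>
        rw [pre_succ]
        by_cases hm : Moves P n
        · exact not_canForce_child (by rwa [length_pre]) ih (pre_succ x n ▸ hx (n + 1))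
        · have hex := exists_not_canForce_child ih
          rw [hcons n (moves_not.2 hm)]
          simp only [τ, dif_pos hex]
          exact hex.choose_spec.2
    have hxY : x ∉ Y := fun hY => by
      obtain ⟨n, hn⟩ := (h.mem_iff hx).1 hY
      exact key n (canForce_of_mem hn)
    simp only [Y, Set.mem_ofPred_eq] at hxY
    cases P <;> simp_all

/-- **The theorem of Gale and Stewart.** -/
theorem determined_of_isOpenOn_or_compl {X : Set (ℕ → A)}
    (h : IsOpenOn T X ∨ IsOpenOn T Xᶜ) : Determined T X := by
  rcases h with h | h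
  · exact determined_of_isOpenOn true (by simpa using h)
  · exact determined_of_isOpenOn false (by simpa [Set.compl_def] using h)

end FA.Determinacy
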