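import Fermat.Agent.Determinacy.AuxGame

/-!
# Strategies of the first player in the auxiliary game
-/

set_option autoImplicit false

universe u

namespace FA.Determinacy

variable {A : Type u}

open Classical in
/-- Follow the auxiliary strategy at a correctly tagged position. -/
noncomputable def follow (T : GameTree A) (U : Set (List A)) (j : ℕ)
    (σ : List (A × Tag A) → A × Tag A) (t₀ t₁ : Tag A) (q : List A) : A :=
  if Valid T U j t₀ t₁ q then (σ (tagged j t₀ t₁ q)).1 else someMove T q

open Classical in
/-- A strategy forcing from a given base, when there is one. -/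
noncomputable def forceStrategy (S : GameTree A) (P : Bool) (U : Set (List A)) (b : List A) :
    List A → A :=
  if h : CanForce S P U b then h.choose else someMove S

theorem isStrategy_forceStrategy (S : GameTree A) (P : Bool) (U : Set (List A)) (b : List A) :
    IsStrategy S P (forceStrategy S P U b) := by
  unfold forceStrategy
  split_ifs with h
  exacts [h.choose_spec.1, isStrategy_someMove S P]

theorem exists_hit {S : GameTree A} {P : Bool} {U : Set (List A)} {x : ℕ → A} {M : ℕ}
    (hx : x ∈ S.body) (h : CanForce S P U (pre x M))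
    (hcons : ∀ n, M ≤ n → Moves P n → x n = forceStrategy S P U (pre x M) (pre x n)) :
    ∃ n, pre x n ∈ U := by
  refine h.choose_spec.2 x hx (by rw [length_pre]) fun n hn hm => ?_
  rw [length_pre] at hn
  rw [hcons n hn hm, forceStrategy, dif_pos h]

variable {T : GameTree A} {U : Set (List A)} {j : ℕ} {hU : ∀ p q, p ∈ U → p <+: q → q ∈ U}
  {P : Bool} {σ : List (A × Tag A) → A × Tag A} {t₀ t₁ : Tag A} {q : List A}

theorem follow_mem (hσ : IsStrategy (auxTree T U j hU) P σ) (hq : q ∈ T)
    (hm : Moves P q.length) : q ++ [follow T U j σ t₀ t₁ q] ∈ T := by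
  unfold follow
  split_ifs with hv
  · simpa using map_fst_mem (hσ _ (tagged_mem_iff.2 hv) (by simpa using hm))
  · exact someMove_mem T hq

theorem follow_congr {σ' : List (A × Tag A) → A × Tag A} {n : ℕ}
    (h : ∀ p ∈ auxTree T U j hU, p.length ≤ n → Moves P p.length → σ p = σ' p)
    (hl : q.length ≤ n) (hm : Moves P q.length) :
    follow T U j σ t₀ t₁ q = follow T U j σ' t₀ t₁ q := by
  unfold follow
  split_ifs with hv
  · rw [h _ (tagged_mem_iff.2 hv) (by simpa using hl) (by simpa using hm)]
  · rfl

theorem follow_low (hq : q ∈ T) (hl : q.length ≤ 2 * j) :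
    follow T U j σ .plain .plain q = (σ (tagged j t₀ t₁ q)).1 := by
  rw [follow, if_pos (valid_low hq hl), tagged_congr_low (t₀' := t₀) (t₁' := t₁) hl]

/-- Plays through valid positions lift. -/
theorem exists_lift_play (hσ : IsStrategy (auxTree T U j hU) P σ) (x : ℕ → A)
    (hv : ∀ n, 2 * j + 2 ≤ n → Valid T U j t₀ t₁ (pre x n))
    (hfst : ∀ n, Moves P n → (σ (tagged j t₀ t₁ (pre x n))).1 = x n)
    (h0 : Moves P (2 * j) → (σ (tagged j t₀ t₁ (pre x (2 * j)))).2 = t₀)
    (h1 : Moves P (2 * j + 1) → (σ (tagged j t₀ t₁ (pre x (2 * j + 1)))).2 = t₁) :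
    ∃ y ∈ (auxTree T U j hU).body, Consistent P σ y ∧ Prod.fst ∘ y = x := by
  have hv' : ∀ n, Valid T U j t₀ t₁ (pre x n) := fun n =>
    (hv (n + 2 * j + 2) (by omega)).of_prefix (pre_prefix x (by omega))
  refine ⟨fun i => (x i, tagAt j t₀ t₁ i), fun n => ?_, fun n hn => ?_, rfl⟩
  · rw [pre_tagged]
    exact tagged_mem_iff.2 (hv' n)
  · rw [pre_tagged]
    refine Prod.ext (hfst n hn).symm ?_
    by_cases e0 : n = 2 * j
    · subst e0
      simp [tagAt, h0 hn]
    by_cases e1 : n = 2 * j + 1
    · subst e1
      simp [tagAt, h1 hn]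
    have hmem := tagged_snoc_mem (hσ _ (tagged_mem_iff.2 (hv' n)) (by simpa using hn))
    simp [tagAt, e0, e1, (hmem.2.2 (by simpa using e0) (by simpa using e1)).1]

/-- After an exit the moves up to it are forced. -/
theorem fst_eq_of_exit (hσ : IsStrategy (auxTree T U j hU) P σ) {x : ℕ → A} {m n : ℕ}
    (hv : Valid T U j t₀ (.exit (pre x m)) (pre x n)) (hn : 2 * j + 1 < n) (hnm : n < m)
    (hm : Moves P n) : (σ (tagged j t₀ (.exit (pre x m)) (pre x n))).1 = x n := by
  have hmem := tagged_snoc_mem (hσ _ (tagged_mem_iff.2 hv) (by simpa using hm))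
  obtain ⟨S, -, -, hrest⟩ := (hmem.2.2 (by simp; omega) (by simp; omega)).2.2 (by simp; omega)
  rcases hrest (by simp; omega) with ⟨u, hu, -, -, -, hc⟩ | ⟨S', hS', -⟩
  · cases hu
    have h1 : pre x n ++ [(σ (tagged j t₀ (.exit (pre x m)) (pre x n))).1] <+: pre x m := by
      rcases hc with h | h
      · exact h
      · exact Eq.subst (motive := fun l => l <+: pre x m) (h.eq_of_length (by
          have := h.length_le
          simp at this ⊢
          omega)) List.prefix_rfl
    refine (pre_succ_inj ?_).symm
    have h2 := List.prefix_iff_eq_take.1 h1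
    rw [List.length_append, List.length_singleton, length_pre, take_pre x hnm] at h2
    exact h2.symm
  · cases hS'

/-- The quasi-strategy carried by a tag. -/
def treeOf (T : GameTree A) : Tag A → GameTree A
  | .quasi S => S
  | _ => T

/-- The tag of the first player's commitment. -/
def firstTag (j : ℕ) (σ : List (A × Tag A) → A × Tag A) (q : List A) : Tag A :=
  (σ (tagged j .plain .plain (q.take (2 * j)))).2

open Classical in
/-- The transfer of a strategy of the first player. -/
noncomputable def firstMap (T : GameTree A) (U : Set (List A)) (j : ℕ)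
    (σ : List (A × Tag A) → A × Tag A) (q : List A) : A :=
  if q.length ≤ 2 * j then follow T U j σ .plain .plain q
  else if hE : ∃ m, 2 * j + 2 ≤ m ∧ m ≤ q.length ∧ q.take m ∈ U ∧
      q.take m ∈ treeOf T (firstTag j σ q) then
    follow T U j σ (firstTag j σ q) (.exit (q.take (Nat.find hE))) q
  else if hF : ∃ m, 2 * j + 2 ≤ m ∧ m ≤ q.length ∧
      CanForce (treeOf T (firstTag j σ q)) true U (q.take m) then
    if q ∈ treeOf T (firstTag j σ q) then
      forceStrategy (treeOf T (firstTag j σ q)) true U (q.take (Nat.find hF)) q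
    else someMove T q
  else follow T U j σ (firstTag j σ q)
    (.stay (avoidTree (treeOf T (firstTag j σ q)) true U (q.take (2 * j + 2)))) q

theorem moves_true_two_mul : Moves true (2 * j) := by simp [Moves]

theorem first_commitment (hσ : IsStrategy (auxTree T U j hU) true σ) {p : List A} (hp : p ∈ T)
    (hl : p.length = 2 * j) :
    ∃ S, (σ (tagged j .plain .plain p)).2 = .quasi S ∧
      QuasiFirst T (p ++ [(σ (tagged j .plain .plain p)).1]) S := by
  have hmem := tagged_snoc_mem (hσ _ (tagged_mem_iff.2
    (valid_low (t₀ := .plain) (t₁ := .plain) hp hl.le)) (by simpa [hl] using moves_true_two_mul))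
  obtain ⟨S, hS, hQ, -⟩ := (hmem.1 hl).2 (by simp [hl])
  exact ⟨S, hS, by rwa [List.take_of_length_le (by simp [hl])] at hQ⟩

theorem isStrategy_firstMap (hσ : IsStrategy (auxTree T U j hU) true σ) :
    IsStrategy T true (firstMap T U j σ) := by
  intro q hq hm
  unfold firstMap
  split_ifs with hl hE hF hqS
  · exact follow_mem hσ hq hm
  · exact follow_mem hσ hq hm
  · obtain ⟨S, hS, hQ⟩ := first_commitment hσ (T.take_mem hq (2 * j))
      (List.length_take_of_le (by omega))
    have e : treeOf T (firstTag j σ q) = S := by simp only [firstTag, hS, treeOf]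
    have hsub : ∀ p ∈ treeOf T (firstTag j σ q), p ∈ T := by
      rw [e]
      exact hQ.sub
    exact hsub _ (isStrategy_forceStrategy _ true U _ q hqS hm)
  · exact someMove_mem T hq
  · exact follow_mem hσ hq hm

theorem firstMap_congr {σ' : List (A × Tag A) → A × Tag A} {n : ℕ}
    (h : ∀ p ∈ auxTree T U j hU, p.length ≤ n → Moves true p.length → σ p = σ' p) (hq : q ∈ T)
    (hl : q.length ≤ n) (hm : Moves true q.length) :
    firstMap T U j σ q = firstMap T U j σ' q := by
  by_cases hlow : q.length ≤ 2 * j
  · rw [firstMap, firstMap, if_pos hlow, if_pos hlow]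
    exact follow_congr h hl hm
  · have e : firstTag j σ q = firstTag j σ' q := by
      have hlen : (q.take (2 * j)).length = 2 * j := List.length_take_of_le (by omega)
      rw [firstTag, firstTag, h _ (tagged_mem_iff.2 (valid_low (T.take_mem hq _) hlen.le))
        (by simp; omega) (by simpa [hlen] using moves_true_two_mul)]
    rw [firstMap, firstMap, if_neg hlow, if_neg hlow, e]
    split_ifs <;> first | rfl | exact follow_congr h hl hm

/-- Plays against a transferred strategy of the first player lift. -/
theorem exists_play_first (hσ : IsStrategy (auxTree T U j hU) true σ) {x : ℕ → A}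
    (hx : x ∈ T.body) (hcons : Consistent true (firstMap T U j σ) x) :
    ∃ y ∈ (auxTree T U j hU).body, Consistent true σ y ∧ Prod.fst ∘ y = x := by
  classical
  obtain ⟨S, hS, hQ⟩ := first_commitment hσ (hx (2 * j)) (length_pre x _)
  have hlow : ∀ (t₀ t₁ : Tag A) n, n ≤ 2 * j → Moves true n →
      (σ (tagged j t₀ t₁ (pre x n))).1 = x n := fun t₀ t₁ n hn hm => by
    rw [hcons n hm, firstMap, if_pos (by rwa [length_pre]),
      follow_low (hx n) (by rwa [length_pre])]
  have hr : pre x (2 * j) ++ [(σ (tagged j .plain .plain (pre x (2 * j)))).1] =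
      pre x (2 * j + 1) := by
    rw [hlow _ _ _ le_rfl moves_true_two_mul, ← pre_succ]
  rw [hr] at hQ
  have htag : ∀ n, 2 * j ≤ n → firstTag j σ (pre x n) = .quasi S := fun n hn => by
    rw [firstTag, take_pre x hn, hS]
  have h0 : ∀ t₁ : Tag A,
      (σ (tagged j (.quasi S) t₁ (pre x (2 * j)))).2 = .quasi S := fun t₁ => by
    rw [tagged_congr_low (t₀' := .plain) (t₁' := .plain) (by rw [length_pre]), hS]
  have h1 : ¬Moves true (2 * j + 1) := by simp [Moves]
  have htake : ∀ {n}, 2 * j + 1 ≤ n → (pre x n).take (2 * j + 1) = pre x (2 * j + 1) :=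
    fun hn => take_pre x hn
  -- the first exit inside the commitment, if any
  by_cases hexit : ∃ m, 2 * j + 2 ≤ m ∧ pre x m ∈ U ∧ pre x m ∈ S
  · let m₀ := Nat.find hexit
    obtain ⟨hm₀, hm₀U, hm₀S⟩ : 2 * j + 2 ≤ m₀ ∧ pre x m₀ ∈ U ∧ pre x m₀ ∈ S := Nat.find_spec hexit
    have hv : ∀ n, 2 * j + 2 ≤ n → Valid T U j (.quasi S) (.exit (pre x m₀)) (pre x n) := by
      refine fun n hn => ⟨hx n, fun _ => ⟨S, rfl, by rw [htake (by omega)]; exact hQ, fun _ =>
        .inl ⟨_, rfl, hm₀S, hm₀U, ?_, ?_⟩⟩⟩
      · rw [take_pre x hn]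
        exact pre_prefix x hm₀
      · exact (le_total n m₀).imp (pre_prefix x) (pre_prefix x)
    refine exists_lift_play hσ x hv (fun n hm => ?_) (fun _ => h0 _) fun h => absurd h h1
    rcases Nat.lt_or_ge (2 * j + 1) n with hn | hn
    · rcases Nat.lt_or_ge n m₀ with hnm | hnm
      · exact fst_eq_of_exit hσ (hv n hn) hn hnm hm
      · rw [hcons n hm, firstMap, if_neg (by rw [length_pre]; omega)]
        have hE : ∃ m, 2 * j + 2 ≤ m ∧ m ≤ (pre x n).length ∧ (pre x n).take m ∈ U ∧
            (pre x n).take m ∈ treeOf T (firstTag j σ (pre x n)) :=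
          ⟨m₀, hm₀, by rwa [length_pre], by rw [take_pre x hnm]; exact hm₀U,
            by rw [take_pre x hnm, htag n (by omega)]; exact hm₀S⟩
        rw [dif_pos hE]
        obtain ⟨h2, h3, h4, h5⟩ := Nat.find_spec hE
        replace h3 := h3.trans_eq (length_pre x n)
        rw [take_pre x h3] at h4 h5
        have eS : treeOf T (firstTag j σ (pre x n)) = S := by rw [htag n (by omega)]; rfl
        replace h5 := (congrArg (fun R => pre x (Nat.find hE) ∈ R) eS).mp h5
        have efind : Nat.find hE = m₀ := le_antisymm (Nat.find_le ⟨hm₀, by rwa [length_pre],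
          by rw [take_pre x hnm]; exact hm₀U,
          by rw [take_pre x hnm, htag n (by omega)]; exact hm₀S⟩) (Nat.find_le ⟨h2, h4, h5⟩)
        rw [efind, take_pre x hnm, htag n (by omega), follow, if_pos (hv n hn)]
    · have : n ≤ 2 * j := by
        rcases eq_or_lt_of_le hn with rfl | h
        exacts [absurd hm h1, by omega]
      exact hlow _ _ n this hm
  · push Not at hexit
    have hnoE : ∀ n, 2 * j ≤ n → ¬∃ m, 2 * j + 2 ≤ m ∧ m ≤ (pre x n).length ∧
        (pre x n).take m ∈ U ∧ (pre x n).take m ∈ treeOf T (firstTag j σ (pre x n)) :=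
      fun n hn ⟨m, h2, h3, h4, h5⟩ => by
        rw [length_pre] at h3
        rw [take_pre x h3] at h4
        rw [take_pre x h3, htag n hn] at h5
        exact hexit m h2 h4 h5
    -- the move without an exit
    have hstay : ∀ n, 2 * j + 2 ≤ n → pre x (2 * j + 2) ∈ S → pre x n ∈ S →
        (∀ m, 2 * j + 2 ≤ m → m ≤ n → ¬CanForce S true U (pre x m)) →
        Valid T U j (.quasi S) (.stay (avoidTree S true U (pre x (2 * j + 2)))) (pre x n) := by
      intro n hn hr2 hnS hsafe
      have hnot := hsafe _ le_rfl hn
      refine ⟨hx n, fun _ => ⟨S, rfl, by rw [htake (by omega)]; exact hQ, fun _ =>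
        .inr ⟨_, rfl, ?_, ?_⟩⟩⟩
      · rw [take_pre x hn]
        refine ⟨fun p hp => ((mem_avoidTree hr2 hnot).1 hp).1, self_mem_avoidTree hr2 hnot,
          fun p hp => ((mem_avoidTree hr2 hnot).1 hp).2.1, fun p hp hpU => ?_,
          fun p hp hlp hmp b hb => child_mem_avoidTree hr2 hnot hp hlp hmp hb⟩
        obtain ⟨hpS, hc, hps⟩ := (mem_avoidTree hr2 hnot).1 hp
        rcases hc with h | h
        · exact hexit _ le_rfl (hU _ _ hpU h) hr2
        · exact hps p.length h.length_le le_rfl (by
            rw [List.take_length]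
            exact canForce_of_mem hpU)
      · refine (mem_avoidTree hr2 hnot).2 ⟨hnS, .inr (pre_prefix x hn), fun m h2 h3 => ?_⟩
        rw [length_pre] at h2 h3
        rw [take_pre x h3]
        exact hsafe m h2 h3
    have hr2 : pre x (2 * j + 2) ∈ S := by
      rw [pre_succ]
      exact hQ.children _ hQ.root le_rfl (by simp [Moves]) _
        (pre_succ x (2 * j + 1) ▸ hx (2 * j + 2))
    have hS : ∀ n, pre x n ∈ S := fun n => by
      induction n with
      | zero => exact S.nil_mem
      | succ n ih =>
        rcases Nat.lt_or_ge n (2 * j + 1) with hn | hn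
        · exact S.mem_of_prefix (pre_prefix x (show n + 1 ≤ 2 * j + 1 by omega)) hQ.root
        rw [pre_succ]
        by_cases hm : Moves true n
        · have hn2 : 2 * j + 2 ≤ n := by
            rcases eq_or_lt_of_le hn with rfl | h
            exacts [absurd hm h1, h]
          rw [hcons n hm, firstMap, if_neg (by rw [length_pre]; omega),
            dif_neg (hnoE n (by omega))]
          simp only [htag n (show 2 * j ≤ n by omega), treeOf]
          split_ifs with hF
          · exact isStrategy_forceStrategy S true U _ _ ih (by rwa [length_pre])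
          · have hv := hstay n hn2 hr2 ih fun m h2 h3 hc => hF
              ⟨m, h2, by rwa [length_pre], by rwa [take_pre x h3]⟩
            rw [take_pre x hn2, follow, if_pos hv]
            have hmem := tagged_snoc_mem (hσ _ (tagged_mem_iff.2 hv) (by simpa using hm))
            obtain ⟨S₂, hS₂, -, hrest⟩ := (hmem.2.2 (by simp; omega) (by simp; omega)).2.2
              (by simp; omega)
            cases hS₂
            rcases hrest (by simp; omega) with ⟨u, hu, -⟩ | ⟨S', hS', hQ', hmem'⟩
            · cases hu
            · exact hQ'.sub _ hmem'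
        · exact hQ.children _ ih (by simpa using hn) (by simpa using moves_not.2 hm) _
            (pre_succ x n ▸ hx (n + 1))
    have hsafe : ∀ m, 2 * j + 2 ≤ m → ¬CanForce S true U (pre x m) := by
      by_contra! hbad
      obtain ⟨hM, hcf⟩ := Nat.find_spec hbad
      obtain ⟨k, hk⟩ := exists_hit hS hcf fun n hn hm => by
        rw [hcons n hm, firstMap, if_neg (by rw [length_pre]; omega),
          dif_neg (hnoE n (by omega))]
        simp only [htag n (show 2 * j ≤ n by omega), treeOf]
        have hF : ∃ m, 2 * j + 2 ≤ m ∧ m ≤ (pre x n).length ∧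
            CanForce S true U ((pre x n).take m) :=
          ⟨_, hM, by rwa [length_pre], by rwa [take_pre x hn]⟩
        rw [dif_pos hF, if_pos (hS n)]
        obtain ⟨h2, h3, h4⟩ := Nat.find_spec hF
        replace h3 := h3.trans_eq (length_pre x n)
        rw [take_pre x h3] at h4
        have efind : Nat.find hF = Nat.find hbad := le_antisymm
          (Nat.find_le ⟨hM, by rwa [length_pre], by rwa [take_pre x hn]⟩) (Nat.find_le ⟨h2, h4⟩)
        rw [efind, take_pre x hn]
      exact hexit (max k (2 * j + 2)) (le_max_right _ _)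
        (hU _ _ hk (pre_prefix x (le_max_left _ _))) (hS _)
    have hv : ∀ n, 2 * j + 2 ≤ n →
        Valid T U j (.quasi S) (.stay (avoidTree S true U (pre x (2 * j + 2)))) (pre x n) :=
      fun n hn => hstay n hn hr2 (hS n) fun m h2 _ => hsafe m h2
    refine exists_lift_play hσ x hv (fun n hm => ?_) (fun _ => h0 _) fun h => absurd h h1
    rcases Nat.lt_or_ge (2 * j + 1) n with hn | hn
    · rw [hcons n hm, firstMap, if_neg (by rw [length_pre]; omega),
        dif_neg (hnoE n (by omega))]
      simp only [htag n (show 2 * j ≤ n by omega), treeOf]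
      rw [dif_neg (fun ⟨m, h2, h3, h4⟩ => by
        rw [length_pre] at h3
        rw [take_pre x h3] at h4
        exact hsafe m h2 h4), take_pre x hn, follow, if_pos (hv n hn)]
    · have : n ≤ 2 * j := by
        rcases eq_or_lt_of_le hn with rfl | h
        exacts [absurd hm h1, by omega]
      exact hlow _ _ n this hm

end FA.Determinacy
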