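import Fermat.Agent.Determinacy.Coverings

/-!
# Martin's auxiliary game

At one round the first player commits to a quasi-strategy, and the second player either names an
exit position inside it or commits to a quasi-strategy avoiding all exits.
-/

set_option autoImplicit false

universe u

namespace FA.Determinacy

variable {A : Type u}

/-- The extra part of a move. -/
inductive Tag (A : Type u) : Type u
  | plain
  | quasi (S : GameTree A)
  | exit (u : List A)
  | stay (S : GameTree A)

/-- One of two positions extends the other. -/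
def Compat (q r : List A) : Prop :=
  q <+: r ∨ r <+: q

theorem Compat.prefix_of_length_le {q r : List A} (h : Compat q r) (hl : r.length ≤ q.length) :
    r <+: q := by
  rcases h with h | h
  · rw [h.eq_of_length (le_antisymm h.length_le hl)]
  · exact h

theorem Compat.of_prefix {p q r : List A} (h : Compat q r) (hpq : p <+: q) : Compat p r :=
  h.elim (fun h => .inl (hpq.trans h)) fun h => List.prefix_or_prefix_of_prefix hpq h

theorem compat_child_of_prefix {q r : List A} (h : r <+: q) (a : A) : Compat (q ++ [a]) r :=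
  .inr (h.trans (List.prefix_append q [a]))

theorem compat_child_of_length_lt {q r : List A} (h : Compat q r) (hl : q.length < r.length) :
    ∃ a, q ++ [a] <+: r := by
  rcases h with h | h
  · obtain ⟨s, rfl⟩ := h
    rcases s with - | ⟨a, s⟩
    · simp at hl
    · exact ⟨a, s, by simp⟩
  · exact absurd h.length_le (not_le.2 hl)

theorem take_eq_of_prefix {p q : List A} (h : p <+: q) {n : ℕ} (hn : n ≤ p.length) :
    p.take n = q.take n := by
  obtain ⟨s, rfl⟩ := h
  rw [List.take_append_of_le_length hn]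

open Classical in
/-- The positions compatible with a given one. -/
noncomputable def cone (S : GameTree A) (r : List A) : GameTree A :=
  if hr : r ∈ S then
    { carrier := {q | q ∈ S ∧ Compat q r}
      nil_mem' := ⟨S.nil_mem, .inl List.nil_prefix⟩
      mem_of_prefix' := fun _ _ hpq hq => ⟨S.mem_of_prefix hpq hq.1, hq.2.of_prefix hpq⟩
      exists_child' := fun q hq => by
        by_cases hl : q.length < r.length
        · obtain ⟨a, ha⟩ := compat_child_of_length_lt hq.2 hl
          exact ⟨a, S.mem_of_prefix ha hr, .inl ha⟩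
        · obtain ⟨a, ha⟩ := S.exists_child hq.1
          exact ⟨a, ha, compat_child_of_prefix (hq.2.prefix_of_length_le (not_lt.1 hl)) a⟩ }
  else S

theorem mem_cone {S : GameTree A} {r : List A} (hr : r ∈ S) {q : List A} :
    q ∈ cone S r ↔ q ∈ S ∧ Compat q r := by
  rw [cone, dif_pos hr]
  rfl

open Classical in
/-- The positions past `r` from which player `P` cannot force the play into `U`. -/
noncomputable def avoidTree (S : GameTree A) (P : Bool) (U : Set (List A)) (r : List A) :
    GameTree A :=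
  if hr : r ∈ S ∧ ¬CanForce S P U r then
    { carrier := {q | q ∈ S ∧ Compat q r ∧
        ∀ m, r.length ≤ m → m ≤ q.length → ¬CanForce S P U (q.take m)}
      nil_mem' := ⟨S.nil_mem, .inl List.nil_prefix, fun m h1 h2 => by
        have h3 : r = [] := List.length_eq_zero_iff.1 (Nat.le_zero.1 (h1.trans h2))
        rw [List.take_nil, ← h3]
        exact hr.2⟩
      mem_of_prefix' := fun p q hpq hq => ⟨S.mem_of_prefix hpq hq.1, hq.2.1.of_prefix hpq,
        fun m h1 h2 => by
          rw [take_eq_of_prefix hpq h2]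
          exact hq.2.2 m h1 (h2.trans hpq.length_le)⟩
      exists_child' := fun q hq => by
        obtain ⟨hqS, hc, hsafe⟩ := hq
        by_cases hl : q.length < r.length
        · obtain ⟨a, ha⟩ := compat_child_of_length_lt hc hl
          refine ⟨a, S.mem_of_prefix ha hr.1, .inl ha, fun m h1 h2 => ?_⟩
          rw [List.length_append, List.length_singleton] at h2
          have : q ++ [a] = r := ha.eq_of_length (by
            have := ha.length_le
            simp only [List.length_append, List.length_singleton] at this ⊢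
            omega)
          rw [List.take_of_length_le (by simp; omega), this]
          exact hr.2
        · have hrq := hc.prefix_of_length_le (not_lt.1 hl)
          have hq' : ¬CanForce S P U q := by
            simpa using hsafe q.length (not_lt.1 hl) le_rfl
          obtain ⟨a, ha, ha'⟩ := exists_not_canForce_child hq'
          refine ⟨a, ha, compat_child_of_prefix hrq a, fun m h1 h2 => ?_⟩
          rcases eq_or_lt_of_le h2 with rfl | h3
          · rwa [List.take_length]
          · rw [List.length_append, List.length_singleton] at h3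
            rw [List.take_append_of_le_length (by omega)]
            exact hsafe m h1 (by omega) }
  else S

theorem mem_avoidTree {S : GameTree A} {P : Bool} {U : Set (List A)} {r : List A} (hr : r ∈ S)
    (h : ¬CanForce S P U r) {q : List A} :
    q ∈ avoidTree S P U r ↔ q ∈ S ∧ Compat q r ∧
      ∀ m, r.length ≤ m → m ≤ q.length → ¬CanForce S P U (q.take m) := by
  rw [avoidTree, dif_pos ⟨hr, h⟩]
  rfl

theorem self_mem_avoidTree {S : GameTree A} {P : Bool} {U : Set (List A)} {r : List A}
    (hr : r ∈ S) (h : ¬CanForce S P U r) : r ∈ avoidTree S P U r :=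
  (mem_avoidTree hr h).2 ⟨hr, .inl List.prefix_rfl, fun m h1 _ => by
    rwa [List.take_of_length_le h1]⟩

theorem child_mem_avoidTree {S : GameTree A} {P : Bool} {U : Set (List A)} {r : List A}
    (hr : r ∈ S) (h : ¬CanForce S P U r) {q : List A} (hq : q ∈ avoidTree S P U r)
    (hl : r.length ≤ q.length) (hm : Moves P q.length) {a : A} (ha : q ++ [a] ∈ S) :
    q ++ [a] ∈ avoidTree S P U r := by
  rw [mem_avoidTree hr h] at hq ⊢
  refine ⟨ha, compat_child_of_prefix (hq.2.1.prefix_of_length_le hl) a, fun m h1 h2 => ?_⟩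
  rcases eq_or_lt_of_le h2 with rfl | h3
  · rw [List.take_length]
    exact not_canForce_child hm (by simpa using hq.2.2 q.length hl le_rfl) ha
  · rw [List.length_append, List.length_singleton] at h3
    rw [List.take_append_of_le_length (by omega)]
    exact hq.2.2 m h1 (by omega)

/-- A quasi-strategy for the first player past `r`. -/
structure QuasiFirst (T : GameTree A) (r : List A) (S : GameTree A) : Prop where
  sub : ∀ q ∈ S, q ∈ T
  root : r ∈ S
  compat : ∀ q ∈ S, Compat q r
  children : ∀ q ∈ S, r.length ≤ q.length → Moves false q.length →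
    ∀ a, q ++ [a] ∈ T → q ++ [a] ∈ S

/-- A quasi-strategy for the second player past `r`, inside `S` and avoiding `U`. -/
structure QuasiSecond (S : GameTree A) (U : Set (List A)) (r : List A) (S' : GameTree A) :
    Prop where
  sub : ∀ q ∈ S', q ∈ S
  root : r ∈ S'
  compat : ∀ q ∈ S', Compat q r
  avoid : ∀ q ∈ S', q ∉ U
  children : ∀ q ∈ S', r.length ≤ q.length → Moves true q.length →
    ∀ a, q ++ [a] ∈ S → q ++ [a] ∈ S'

variable (T : GameTree A) (U : Set (List A)) (j : ℕ)

/-- A correctly tagged position. -/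
def Valid (t₀ t₁ : Tag A) (q : List A) : Prop :=
  q ∈ T ∧ (2 * j < q.length → ∃ S, t₀ = .quasi S ∧ QuasiFirst T (q.take (2 * j + 1)) S ∧
    (2 * j + 1 < q.length →
      (∃ u, t₁ = .exit u ∧ u ∈ S ∧ u ∈ U ∧ q.take (2 * j + 2) <+: u ∧ Compat q u) ∨
      ∃ S', t₁ = .stay S' ∧ QuasiSecond S U (q.take (2 * j + 2)) S' ∧ q ∈ S'))

/-- The tag at each level. -/
def tagAt (t₀ t₁ : Tag A) (i : ℕ) : Tag A :=
  if i = 2 * j then t₀ else if i = 2 * j + 1 then t₁ else .plain

/-- A position with its tags. -/
def tagged (t₀ t₁ : Tag A) (q : List A) : List (A × Tag A) :=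
  q.mapIdx fun i a => (a, tagAt j t₀ t₁ i)

variable {T U j} {t₀ t₁ t₀' t₁' : Tag A} {q : List A}

theorem Valid.of_prefix (h : Valid T U j t₀ t₁ q) {p : List A} (hp : p <+: q) :
    Valid T U j t₀ t₁ p := by
  refine ⟨T.mem_of_prefix hp h.1, fun h1 => ?_⟩
  obtain ⟨S, hS, hQ, hrest⟩ := h.2 (h1.trans_le hp.length_le)
  refine ⟨S, hS, by rwa [take_eq_of_prefix hp h1], fun h2 => ?_⟩
  rw [take_eq_of_prefix hp h2]
  rcases hrest (h2.trans_le hp.length_le) with ⟨u, hu, huS, huU, hpre, hc⟩ | ⟨S', hS', hQ', hq⟩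
  · exact .inl ⟨u, hu, huS, huU, hpre, hc.of_prefix hp⟩
  · exact .inr ⟨S', hS', hQ', S'.mem_of_prefix hp hq⟩

theorem valid_low (hq : q ∈ T) (hl : q.length ≤ 2 * j) : Valid T U j t₀ t₁ q :=
  ⟨hq, fun h => absurd hl (not_le.2 h)⟩

theorem valid_mid {S : GameTree A} (hq : q ∈ T) (hl : q.length = 2 * j + 1)
    (hS : QuasiFirst T q S) : Valid T U j (.quasi S) t₁ q :=
  ⟨hq, fun _ => ⟨S, rfl, by rwa [List.take_of_length_le hl.le], fun h => absurd hl.le (not_le.2 h)⟩⟩

@[simp] theorem map_fst_tagged : (tagged j t₀ t₁ q).map Prod.fst = q :=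
  List.ext_getElem (by simp [tagged]) fun n _ _ => by simp [tagged]

@[simp] theorem length_tagged : (tagged j t₀ t₁ q).length = q.length := by
  simp [tagged]

theorem tagged_append_singleton (a : A) :
    tagged j t₀ t₁ (q ++ [a]) = tagged j t₀ t₁ q ++ [(a, tagAt j t₀ t₁ q.length)] := by
  simp [tagged, List.mapIdx_append]

theorem tagged_prefix {p : List A} (h : p <+: q) : tagged j t₀ t₁ p <+: tagged j t₀ t₁ q := by
  obtain ⟨s, rfl⟩ := h
  simp [tagged, List.mapIdx_append]

theorem tagged_congr_first (hl : q.length ≤ 2 * j + 1) :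
    tagged j t₀ t₁ q = tagged j t₀ t₁' q := by
  refine List.ext_getElem (by simp) fun n h1 h2 => ?_
  rw [length_tagged] at h1
  simp [tagged, tagAt, show n ≠ 2 * j + 1 by omega]

theorem tagged_congr_low (hl : q.length ≤ 2 * j) :
    tagged j t₀ t₁ q = tagged j t₀' t₁' q := by
  refine List.ext_getElem (by simp) fun n h1 h2 => ?_
  rw [length_tagged] at h1
  simp [tagged, tagAt, show n ≠ 2 * j by omega, show n ≠ 2 * j + 1 by omega]

theorem tagged_inj (h : tagged j t₀ t₁ q = tagged j t₀' t₁' q) :
    (2 * j < q.length → t₀ = t₀') ∧ (2 * j + 1 < q.length → t₁ = t₁') := by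
  refine ⟨fun hl => ?_, fun hl => ?_⟩
  · have := List.getElem_of_eq h (i := 2 * j) (by simpa using hl)
    simpa [tagged, tagAt] using this
  · have := List.getElem_of_eq h (i := 2 * j + 1) (by simpa using hl)
    simpa [tagged, tagAt] using this

theorem Valid.congr (h : Valid T U j t₀ t₁ q) (he : tagged j t₀ t₁ q = tagged j t₀' t₁' q) :
    Valid T U j t₀' t₁' q := by
  obtain ⟨h0, h1⟩ := tagged_inj he
  refine ⟨h.1, fun hl => ?_⟩
  obtain ⟨S, hS, hQ, hrest⟩ := h.2 hl
  refine ⟨S, (h0 hl).symm.trans hS, hQ, fun hl' => ?_⟩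
  rw [← h1 hl']
  exact hrest hl'

theorem take_eq_self_append {m : ℕ} {a : A} (hl : q.length + 1 ≤ m) :
    (q ++ [a]).take m = q ++ [a] :=
  List.take_of_length_le (by simpa using hl)

variable (T U j) (hU : ∀ p q, p ∈ U → p <+: q → q ∈ U)

/-- **The auxiliary tree.** -/
def auxTree : GameTree (A × Tag A) where
  carrier := {p | ∃ t₀ t₁ q, Valid T U j t₀ t₁ q ∧ p = tagged j t₀ t₁ q}
  nil_mem' := ⟨.plain, .plain, [], valid_low T.nil_mem (Nat.zero_le _), rfl⟩
  mem_of_prefix' := fun p r hpr ⟨t₀, t₁, q, hv, hr⟩ => by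
    refine ⟨t₀, t₁, q.take p.length, hv.of_prefix (List.take_prefix _ _), ?_⟩
    rw [hr] at hpr
    have hl : p.length ≤ q.length := by simpa using hpr.length_le
    refine (List.prefix_of_prefix_length_le hpr (tagged_prefix (List.take_prefix _ _))
      (by simp [hl])).eq_of_length (by simp [hl])
  exists_child' := by
    rintro _ ⟨t₀, t₁, q, hv, rfl⟩
    suffices h : ∃ a t₀' t₁', tagged j t₀ t₁ q = tagged j t₀' t₁' q ∧
        Valid T U j t₀' t₁' (q ++ [a]) by
      obtain ⟨a, t₀', t₁', he, hv'⟩ := h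
      exact ⟨_, t₀', t₁', q ++ [a], hv', by rw [tagged_append_singleton, he]⟩
    obtain ⟨a, ha⟩ := T.exists_child hv.1
    rcases lt_trichotomy q.length (2 * j) with hl | hl | hl
    · exact ⟨a, t₀, t₁, rfl, valid_low ha (by simp; omega)⟩
    · refine ⟨a, .quasi (cone T (q ++ [a])), t₁, tagged_congr_low hl.le,
        valid_mid ha (by simp [hl]) ⟨fun p hp => ((mem_cone ha).1 hp).1,
          (mem_cone ha).2 ⟨ha, .inl List.prefix_rfl⟩, fun p hp => ((mem_cone ha).1 hp).2,
          fun p hp hlp _ b hb => (mem_cone ha).2 ⟨hb, compat_child_of_prefix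
            (((mem_cone ha).1 hp).2.prefix_of_length_le hlp) b⟩⟩⟩
    · obtain ⟨S, hS, hQ, hrest⟩ := hv.2 hl
      have htake : (q ++ [a]).take (2 * j + 1) = q.take (2 * j + 1) :=
        List.take_append_of_le_length hl
      rcases Nat.lt_or_ge (2 * j + 1) q.length with hl' | hl'
      · rcases hrest hl' with ⟨u, hu, huS, huU, hpre, hc⟩ | ⟨S', hS', hQ', hqS'⟩
        · obtain ⟨b, hb, hcb⟩ : ∃ b, q ++ [b] ∈ T ∧ Compat (q ++ [b]) u := by
            by_cases hlu : q.length < u.length
            · obtain ⟨b, hb⟩ := compat_child_of_length_lt hc hlu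
              exact ⟨b, hQ.sub _ (S.mem_of_prefix hb huS), .inl hb⟩
            · exact ⟨a, ha, compat_child_of_prefix (hc.prefix_of_length_le (not_lt.1 hlu)) a⟩
          refine ⟨b, t₀, t₁, rfl, hb, fun _ => ⟨S, hS, ?_, fun _ => .inl
            ⟨u, hu, huS, huU, ?_, hcb⟩⟩⟩
          · rwa [List.take_append_of_le_length hl]
          · rwa [List.take_append_of_le_length hl']
        · obtain ⟨b, hb⟩ := S'.exists_child hqS'
          refine ⟨b, t₀, t₁, rfl, hQ.sub _ (hQ'.sub _ hb), fun _ => ⟨S, hS, ?_, fun _ => .inr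
            ⟨S', hS', ?_, hb⟩⟩⟩
          · rwa [List.take_append_of_le_length hl]
          · rwa [List.take_append_of_le_length hl']
      · have hlq : q.length = 2 * j + 1 := le_antisymm hl' hl
        have hqS : q ∈ S := by
          have := hQ.root
          rwa [List.take_of_length_le hl'] at this
        have hqaS : q ++ [a] ∈ S := hQ.children q hqS (by simp [hlq])
          (by rw [hlq]; simp [Moves]) a ha
        by_cases hu : ∃ u, u ∈ S ∧ u ∈ U ∧ q ++ [a] <+: u
        · obtain ⟨u, huS, huU, hpre⟩ := hu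
          refine ⟨a, t₀, .exit u, tagged_congr_first hl', ha, fun _ => ⟨S, hS, by rwa [htake],
            fun _ => .inl ⟨u, rfl, huS, huU, ?_, .inl hpre⟩⟩⟩
          rwa [take_eq_self_append (by omega)]
        · refine ⟨a, t₀, .stay (cone S (q ++ [a])), tagged_congr_first hl', ha, fun _ =>
            ⟨S, hS, by rwa [htake], fun _ => .inr ⟨_, rfl, ?_,
              (mem_cone hqaS).2 ⟨hqaS, .inl List.prefix_rfl⟩⟩⟩⟩
          rw [take_eq_self_append (by omega)]
          refine ⟨fun p hp => ((mem_cone hqaS).1 hp).1,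
            (mem_cone hqaS).2 ⟨hqaS, .inl List.prefix_rfl⟩, fun p hp => ((mem_cone hqaS).1 hp).2,
            fun p hp hpU => hu ?_, fun p hp hlp _ b hb => (mem_cone hqaS).2 ⟨hb,
              compat_child_of_prefix (((mem_cone hqaS).1 hp).2.prefix_of_length_le hlp) b⟩⟩
          obtain ⟨hpS, hc⟩ := (mem_cone hqaS).1 hp
          rcases hc with h | h
          · exact ⟨q ++ [a], hqaS, hU p _ hpU h, List.prefix_rfl⟩
          · exact ⟨p, hpS, hpU, h⟩

variable {T U j hU}

theorem mem_auxTree {p : List (A × Tag A)} :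
    p ∈ auxTree T U j hU ↔ ∃ t₀ t₁ q, Valid T U j t₀ t₁ q ∧ p = tagged j t₀ t₁ q :=
  Iff.rfl

theorem tagged_mem_iff : tagged j t₀ t₁ q ∈ auxTree T U j hU ↔ Valid T U j t₀ t₁ q := by
  refine ⟨fun ⟨s₀, s₁, r, hv, he⟩ => ?_, fun h => ⟨t₀, t₁, q, h, rfl⟩⟩
  have hr : r = q := by simpa using congrArg (List.map Prod.fst) he.symm
  subst hr
  exact hv.congr he.symm

theorem map_fst_mem {p : List (A × Tag A)} (hp : p ∈ auxTree T U j hU) : p.map Prod.fst ∈ T := by
  obtain ⟨t₀, t₁, q, hv, rfl⟩ := hp
  rw [map_fst_tagged]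
  exact hv.1

/-- The moves continuing a tagged position. -/
theorem tagged_snoc_mem {b : A × Tag A} (h : tagged j t₀ t₁ q ++ [b] ∈ auxTree T U j hU) :
    (q.length = 2 * j → Valid T U j b.2 t₁ (q ++ [b.1])) ∧
    (q.length = 2 * j + 1 → Valid T U j t₀ b.2 (q ++ [b.1])) ∧
    (q.length ≠ 2 * j → q.length ≠ 2 * j + 1 → b.2 = .plain ∧ Valid T U j t₀ t₁ (q ++ [b.1])) := by
  obtain ⟨s₀, s₁, r, hv, he⟩ := h
  have hr : r = q ++ [b.1] := by simpa using congrArg (List.map Prod.fst) he.symm
  subst hr
  rw [tagged_append_singleton] at he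
  obtain ⟨he₁, he₂⟩ := List.append_inj he (by simp)
  have hb : b.2 = tagAt j s₀ s₁ q.length := by
    simpa using congrArg (fun l : List (A × Tag A) => l.map Prod.snd) he₂
  obtain ⟨h0, h1⟩ := tagged_inj he₁
  refine ⟨fun hl => hv.congr ?_, fun hl => hv.congr ?_, fun hl hl' => ⟨?_, hv.congr ?_⟩⟩
  · simp only [tagAt, if_pos hl] at hb
    rw [hb, tagged_append_singleton, tagged_append_singleton,
      tagged_congr_low (t₀' := s₀) (t₁' := t₁) hl.le]
    simp [tagAt, hl]
  · simp only [tagAt, if_neg (show q.length ≠ 2 * j by omega), if_pos hl] at hb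
    rw [hb, tagged_append_singleton, tagged_append_singleton, h0 (by omega),
      tagged_congr_first (t₁' := s₁) hl.le]
  · simpa [tagAt, hl, hl'] using hb
  · rw [tagged_append_singleton, tagged_append_singleton, ← he₁]
    simp [tagAt, hl, hl']

theorem pre_tagged (x : ℕ → A) (n : ℕ) :
    pre (fun i => (x i, tagAt j t₀ t₁ i)) n = tagged j t₀ t₁ (pre x n) := by
  induction n with
  | zero => rfl
  | succ n ih => rw [pre_succ, pre_succ, tagged_append_singleton, ih, length_pre]

/-- Projection of the plays. -/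
theorem fst_mem_body {y : ℕ → A × Tag A} (hy : y ∈ (auxTree T U j hU).body) :
    Prod.fst ∘ y ∈ T.body := fun n => map_pre Prod.fst y n ▸ map_fst_mem (hy n)

/-- **The closed payoff becomes clopen.** -/
theorem isClopenOn_preimage {X : Set (ℕ → A)}
    (hX : ∀ x ∈ T.body, x ∈ X ↔ ∀ n, pre x n ∉ U) :
    IsClopenOn (auxTree T U j hU) {y | Prod.fst ∘ y ∈ X} := by
  have key : ∀ y ∈ (auxTree T U j hU).body,
      Prod.fst ∘ y ∈ X ↔ ∃ S', (y (2 * j + 1)).2 = Tag.stay S' := by
    intro y hy
    have hx := fst_mem_body hy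
    have hN : ∀ N, 2 * j + 1 < N →
        ∃ t₀, Valid T U j t₀ (y (2 * j + 1)).2 (pre (Prod.fst ∘ y) N) := by
      intro N hN
      obtain ⟨t₀, t₁, q, hv, he⟩ := hy N
      have hq : q = pre (Prod.fst ∘ y) N := by
        simpa [map_pre] using congrArg (List.map Prod.fst) he.symm
      subst hq
      refine ⟨t₀, ?_⟩
      have := List.getElem_of_eq he (i := 2 * j + 1) (by simpa using hN)
      rw [show (y (2 * j + 1)).2 = t₁ by
        simpa [tagged, tagAt, pre] using congrArg Prod.snd this]
      exact hv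
    obtain ⟨t₀, -, hv⟩ := hN (2 * j + 2) (by omega)
    obtain ⟨S, -, -, hrest⟩ := hv (by simp)
    rcases hrest (by simp) with ⟨u, hu, -, huU, -, -⟩ | ⟨S', hS', -, -⟩
    · refine iff_of_false (fun hxX => ?_) fun ⟨S', hS'⟩ => by rw [hu] at hS'; cases hS'
      obtain ⟨t₀', -, hv'⟩ := hN (u.length + 2 * j + 2) (by omega)
      obtain ⟨S₂, -, -, hrest'⟩ := hv' (by simp; omega)
      rcases hrest' (by simp) with ⟨u', hu', -, -, -, hc⟩ | ⟨S', hS', -, -⟩
      · rw [hu] at hu'
        cases hu'
        have h1 := hc.prefix_of_length_le (by simp; omega)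
        have h2 : pre (Prod.fst ∘ y) u.length = u := by
          rw [← take_pre (n := u.length + 2 * j + 2) _ (by omega)]
          exact (List.prefix_iff_eq_take.1 h1).symm
        exact (hX _ hx).1 hxX u.length (by rwa [h2])
      · rw [hu] at hS'
        cases hS'
    · refine iff_of_true ((hX _ hx).2 fun n hn => ?_) ⟨S', hS'⟩
      obtain ⟨t₀', -, hv'⟩ := hN (n + 2 * j + 2) (by omega)
      obtain ⟨S₂, -, -, hrest'⟩ := hv' (by simp; omega)
      rcases hrest' (by simp) with ⟨u', hu', -⟩ | ⟨S'', hS'', hQ, hmem⟩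
      · rw [hS'] at hu'
        cases hu'
      · exact hQ.avoid _ hmem (hU _ _ hn (pre_prefix _ (by omega)))
  have hcoord : ∀ y z : ℕ → A × Tag A, pre z (2 * j + 2) = pre y (2 * j + 2) →
      z (2 * j + 1) = y (2 * j + 1) := fun y z h => by
    simpa [pre] using List.getElem_of_eq h (i := 2 * j + 1) (by simp)
  refine ⟨fun y hy hyX => ⟨2 * j + 2, fun z hz hzy => ?_⟩,
    fun y hy hyX => ⟨2 * j + 2, fun z hz hzy => ?_⟩⟩
  · show Prod.fst ∘ z ∈ X
    rw [key z hz, hcoord y z hzy]
    exact (key y hy).1 hyX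
  · show ¬Prod.fst ∘ z ∈ X
    rw [key z hz, hcoord y z hzy, ← key y hy]
    exact hyX

end FA.Determinacy
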