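import Fermat.Agent.Determinacy.AuxFirst

/-!
# Strategies of the second player in the auxiliary game
-/

set_option autoImplicit false

universe u

namespace FA.Determinacy

variable {A : Type u}

open Classical in
/-- The answers to the possible commitments. -/
noncomputable def response (T : GameTree A) (j : ℕ) (σ : List (A × Tag A) → A × Tag A)
    (r : List A) (S : GameTree A) : Tag A :=
  if QuasiFirst T r S then (σ (tagged j (.quasi S) .plain r)).2 else .plain

/-- The exits the second player is ready to name. -/
def exitsSet (R : GameTree A → Tag A) : Set (List A) :=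
  {u | ∃ S, R S = .exit u}

open Classical in
/-- A commitment answered by a given exit. -/
noncomputable def exitTree (T : GameTree A) (R : GameTree A → Tag A) (u : List A) : GameTree A :=
  if h : ∃ S, R S = .exit u then h.choose else T

open Classical in
/-- The transfer of a strategy of the second player. -/
noncomputable def secondMap (T : GameTree A) (U : Set (List A)) (j : ℕ)
    (σ : List (A × Tag A) → A × Tag A) (q : List A) : A :=
  if q.length ≤ 2 * j then follow T U j σ .plain .plain q
  else
    let R := response T j σ (q.take (2 * j + 1))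
    if hE : ∃ m, 2 * j + 2 ≤ m ∧ m ≤ q.length ∧ q.take m ∈ exitsSet R then
      follow T U j σ (.quasi (exitTree T R (q.take (Nat.find hE)))) (.exit (q.take (Nat.find hE))) q
    else if hF : ∃ m, 2 * j + 1 ≤ m ∧ m ≤ q.length ∧
        CanForce T false (exitsSet R) (q.take m) then
      forceStrategy T false (exitsSet R) (q.take (Nat.find hF)) q
    else follow T U j σ (.quasi (avoidTree T false (exitsSet R) (q.take (2 * j + 1))))
      (R (avoidTree T false (exitsSet R) (q.take (2 * j + 1)))) q

variable {T : GameTree A} {U : Set (List A)} {j : ℕ} {hU : ∀ p q, p ∈ U → p <+: q → q ∈ U}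
  {σ : List (A × Tag A) → A × Tag A} {q : List A}

theorem moves_false_succ : Moves false (2 * j + 1) := by simp [Moves]

theorem isStrategy_secondMap (hσ : IsStrategy (auxTree T U j hU) false σ) :
    IsStrategy T false (secondMap T U j σ) := by
  intro q hq hm
  unfold secondMap
  simp only []
  split_ifs
  · exact follow_mem hσ hq hm
  · exact follow_mem hσ hq hm
  · exact isStrategy_forceStrategy T false _ _ q hq hm
  · exact follow_mem hσ hq hm

theorem secondMap_congr {σ' : List (A × Tag A) → A × Tag A} {n : ℕ}
    (h : ∀ p ∈ auxTree T U j hU, p.length ≤ n → Moves false p.length → σ p = σ' p) (hq : q ∈ T)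
    (hl : q.length ≤ n) (hm : Moves false q.length) :
    secondMap T U j σ q = secondMap T U j σ' q := by
  by_cases hlow : q.length ≤ 2 * j
  · rw [secondMap, secondMap, if_pos hlow, if_pos hlow]
    exact follow_congr h hl hm
  · have e : response T j σ (q.take (2 * j + 1)) = response T j σ' (q.take (2 * j + 1)) := by
      have hlen : (q.take (2 * j + 1)).length = 2 * j + 1 := List.length_take_of_le (by omega)
      funext S
      unfold response
      split_ifs with hS
      · rw [h _ (tagged_mem_iff.2 (valid_mid (T.take_mem hq _) hlen hS)) (by simp; omega)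
          (by simpa [hlen] using moves_false_succ)]
      · rfl
    rw [secondMap, secondMap, if_neg hlow, if_neg hlow, e]
    simp only []
    split_ifs <;> first | rfl | exact follow_congr h hl hm

/-- The answer to a commitment. -/
theorem second_answer (hσ : IsStrategy (auxTree T U j hU) false σ) {r : List A} (hr : r ∈ T)
    (hl : r.length = 2 * j + 1) {S : GameTree A} (hS : QuasiFirst T r S) :
    (∃ u, response T j σ r S = .exit u ∧ u ∈ S ∧ u ∈ U ∧
      r ++ [(σ (tagged j (.quasi S) .plain r)).1] <+: u) ∨
    ∃ S', response T j σ r S = .stay S' ∧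
      QuasiSecond S U (r ++ [(σ (tagged j (.quasi S) .plain r)).1]) S' := by
  have hmem := tagged_snoc_mem (hσ _ (tagged_mem_iff.2 (valid_mid (t₁ := .plain) hr hl hS))
    (by simpa [hl] using moves_false_succ))
  obtain ⟨S₂, hS₂, -, hrest⟩ := (hmem.2.1 hl).2 (by simp [hl])
  cases hS₂
  rw [response, if_pos hS]
  rcases hrest (by simp [hl]) with ⟨u, hu, huS, huU, hpre, -⟩ | ⟨S', hS', hQ, -⟩
  · rw [take_eq_self_append (by omega)] at hpre
    exact .inl ⟨u, hu, huS, huU, hpre⟩
  · rw [take_eq_self_append (by omega)] at hQ
    exact .inr ⟨S', hS', hQ⟩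

theorem exitsSet_spec (hσ : IsStrategy (auxTree T U j hU) false σ) {r u : List A} (hr : r ∈ T)
    (hl : r.length = 2 * j + 1) (hu : u ∈ exitsSet (response T j σ r)) :
    QuasiFirst T r (exitTree T (response T j σ r) u) ∧
      response T j σ r (exitTree T (response T j σ r) u) = .exit u ∧
      u ∈ exitTree T (response T j σ r) u ∧ u ∈ U ∧
      r ++ [(σ (tagged j (.quasi (exitTree T (response T j σ r) u)) .plain r)).1] <+: u := by
  have hex : ∃ S, response T j σ r S = .exit u := hu
  have hR : response T j σ r (exitTree T (response T j σ r) u) = .exit u := by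
    rw [exitTree, dif_pos hex]
    exact hex.choose_spec
  have hQ : QuasiFirst T r (exitTree T (response T j σ r) u) := by
    by_contra hn
    simp [response, hn] at hR
  rcases second_answer hσ hr hl hQ with ⟨u', hu', h1, h2, h3⟩ | ⟨S', hS', -⟩
  · rw [hR] at hu'
    cases hu'
    exact ⟨hQ, hR, h1, h2, h3⟩
  · rw [hR] at hS'
    cases hS'

/-- Plays against a transferred strategy of the second player lift. -/
theorem exists_play_second (hσ : IsStrategy (auxTree T U j hU) false σ) {x : ℕ → A}
    (hx : x ∈ T.body) (hcons : Consistent false (secondMap T U j σ) x) :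
    ∃ y ∈ (auxTree T U j hU).body, Consistent false σ y ∧ Prod.fst ∘ y = x := by
  classical
  set R := response T j σ (pre x (2 * j + 1))
  have hl : (pre x (2 * j + 1)).length = 2 * j + 1 := length_pre x _
  have hr := hx (2 * j + 1)
  have hlow : ∀ (t₀ t₁ : Tag A) n, n ≤ 2 * j → Moves false n →
      (σ (tagged j t₀ t₁ (pre x n))).1 = x n := fun t₀ t₁ n hn hm => by
    rw [hcons n hm, secondMap, if_pos (by rwa [length_pre]),
      follow_low (hx n) (by rwa [length_pre])]
  have h0 : ¬Moves false (2 * j) := by simp [Moves]
  have hR : ∀ n, 2 * j + 1 ≤ n → response T j σ ((pre x n).take (2 * j + 1)) = R := fun n hn => by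
    rw [take_pre x hn]
  have htagR : ∀ S t₁, QuasiFirst T (pre x (2 * j + 1)) S →
      (σ (tagged j (.quasi S) t₁ (pre x (2 * j + 1)))).2 = R S := fun S t₁ hS => by
    rw [tagged_congr_first (t₁' := .plain) hl.le]
    exact (if_pos hS).symm
  by_cases hexit : ∃ m, 2 * j + 2 ≤ m ∧ pre x m ∈ exitsSet R
  · let m₀ := Nat.find hexit
    obtain ⟨hm₀, hm₀E⟩ : 2 * j + 2 ≤ m₀ ∧ pre x m₀ ∈ exitsSet R := Nat.find_spec hexit
    obtain ⟨hQ, hR₀, hmemS, hmemU, hpre⟩ := exitsSet_spec hσ hr hl hm₀E
    set S := exitTree T R (pre x m₀)
    have hv : ∀ n, 2 * j + 2 ≤ n → Valid T U j (.quasi S) (.exit (pre x m₀)) (pre x n) := by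
      refine fun n hn => ⟨hx n, fun _ => ⟨S, rfl, by rw [take_pre x (by omega)]; exact hQ, fun _ =>
        .inl ⟨_, rfl, hmemS, hmemU, ?_, ?_⟩⟩⟩
      · rw [take_pre x hn]
        exact pre_prefix x hm₀
      · exact (le_total n m₀).imp (pre_prefix x) (pre_prefix x)
    refine exists_lift_play hσ x hv (fun n hm => ?_) (fun h => absurd h h0)
      fun _ => (htagR S _ hQ).trans hR₀
    rcases lt_trichotomy n (2 * j + 1) with hn | rfl | hn
    · exact hlow _ _ n (by omega) hm
    · rw [tagged_congr_first (t₁' := .plain) hl.le]
      refine (pre_succ_inj ?_).symm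
      have h2 := List.prefix_iff_eq_take.1 hpre
      rw [List.length_append, List.length_singleton, length_pre, take_pre x hm₀] at h2
      exact h2.symm
    · rcases Nat.lt_or_ge n m₀ with hnm | hnm
      · exact fst_eq_of_exit hσ (hv n hn) hn hnm hm
      · rw [hcons n hm, secondMap, if_neg (by rw [length_pre]; omega)]
        simp only [hR n (show 2 * j + 1 ≤ n by omega)]
        have hE : ∃ m, 2 * j + 2 ≤ m ∧ m ≤ (pre x n).length ∧ (pre x n).take m ∈ exitsSet R :=
          ⟨m₀, hm₀, by rwa [length_pre], by rw [take_pre x hnm]; exact hm₀E⟩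
        rw [dif_pos hE]
        obtain ⟨h2, h3, h4⟩ := Nat.find_spec hE
        replace h3 := h3.trans_eq (length_pre x n)
        rw [take_pre x h3] at h4
        have efind : Nat.find hE = m₀ := le_antisymm (Nat.find_le ⟨hm₀, by rwa [length_pre],
          by rw [take_pre x hnm]; exact hm₀E⟩) (Nat.find_le ⟨h2, h4⟩)
        rw [efind, take_pre x hnm, follow, if_pos (hv n hn)]
  · push Not at hexit
    have hnoE : ∀ n, ¬∃ m, 2 * j + 2 ≤ m ∧ m ≤ (pre x n).length ∧
        (pre x n).take m ∈ exitsSet R := fun n ⟨m, h2, h3, h4⟩ => by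
      rw [length_pre] at h3
      rw [take_pre x h3] at h4
      exact hexit m h2 h4
    have hsafe : ∀ m, 2 * j + 1 ≤ m → ¬CanForce T false (exitsSet R) (pre x m) := by
      by_contra! hbad
      obtain ⟨hM, hcf⟩ := Nat.find_spec hbad
      obtain ⟨k, hk⟩ := exists_hit hx hcf fun n hn hm => by
        rw [hcons n hm, secondMap, if_neg (by rw [length_pre]; omega)]
        simp only [hR n (show 2 * j + 1 ≤ n by omega)]
        rw [dif_neg (hnoE n)]
        have hF : ∃ m, 2 * j + 1 ≤ m ∧ m ≤ (pre x n).length ∧
            CanForce T false (exitsSet R) ((pre x n).take m) :=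
          ⟨_, hM, by rwa [length_pre], by rwa [take_pre x hn]⟩
        rw [dif_pos hF]
        obtain ⟨h2, h3, h4⟩ := Nat.find_spec hF
        replace h3 := h3.trans_eq (length_pre x n)
        rw [take_pre x h3] at h4
        have efind : Nat.find hF = Nat.find hbad := le_antisymm
          (Nat.find_le ⟨hM, by rwa [length_pre], by rwa [take_pre x hn]⟩) (Nat.find_le ⟨h2, h4⟩)
        rw [efind, take_pre x hn]
      refine hexit k ?_ hk
      obtain ⟨-, -, -, -, hpre⟩ := exitsSet_spec hσ hr hl hk
      have := hpre.length_le
      simp only [List.length_append, List.length_singleton, length_pre] at this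
      omega
    have hnot := hsafe _ le_rfl
    set S := avoidTree T false (exitsSet R) (pre x (2 * j + 1))
    have hQ : QuasiFirst T (pre x (2 * j + 1)) S :=
      ⟨fun p hp => ((mem_avoidTree hr hnot).1 hp).1, self_mem_avoidTree hr hnot,
        fun p hp => ((mem_avoidTree hr hnot).1 hp).2.1,
        fun p hp hlp hmp a ha => child_mem_avoidTree hr hnot hp hlp hmp ha⟩
    obtain ⟨S', hRS, hQ'⟩ : ∃ S', R S = .stay S' ∧ QuasiSecond S U
        (pre x (2 * j + 1) ++ [(σ (tagged j (.quasi S) .plain (pre x (2 * j + 1)))).1]) S' := by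
      rcases second_answer hσ hr hl hQ with ⟨u, hu, huS, -, hpre⟩ | h
      · have hle := (List.prefix_append _ _).trans hpre
        exact absurd (by
          rw [List.take_length]
          exact canForce_of_mem (show u ∈ exitsSet R from ⟨S, hu⟩))
          (((mem_avoidTree hr hnot).1 huS).2.2 u.length hle.length_le le_rfl)
      · exact h
    have hbranch : ∀ n, 2 * j + 1 ≤ n → Moves false n →
        x n = follow T U j σ (.quasi S) (.stay S') (pre x n) := fun n hn hm => by
      rw [hcons n hm, secondMap, if_neg (by rw [length_pre]; omega)]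
      simp only [hR n hn]
      rw [dif_neg (hnoE n), dif_neg (fun ⟨m, h2, h3, h4⟩ => by
        rw [length_pre] at h3
        rw [take_pre x h3] at h4
        exact hsafe m h2 h4), take_pre x hn, hRS]
    have hfirst : x (2 * j + 1) = (σ (tagged j (.quasi S) .plain (pre x (2 * j + 1)))).1 := by
      rw [hbranch _ le_rfl moves_false_succ, follow, if_pos (valid_mid hr hl hQ),
        tagged_congr_first (t₁' := .plain) hl.le]
    rw [← hfirst, ← pre_succ] at hQ'
    have hmemS : ∀ n, pre x n ∈ S := fun n => (mem_avoidTree hr hnot).2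
      ⟨hx n, (le_total n (2 * j + 1)).imp (pre_prefix x) (pre_prefix x), fun m h2 h3 => by
        rw [length_pre] at h2 h3
        rw [take_pre x h3]
        exact hsafe m h2⟩
    have hvalid : ∀ n, 2 * j + 2 ≤ n → pre x n ∈ S' →
        Valid T U j (.quasi S) (.stay S') (pre x n) := fun n hn hnS' =>
      ⟨hx n, fun _ => ⟨S, rfl, by rw [take_pre x (by omega)]; exact hQ, fun _ =>
        .inr ⟨S', rfl, by rw [take_pre x hn]; exact hQ', hnS'⟩⟩⟩
    have hS' : ∀ n, pre x n ∈ S' := fun n => by
      induction n with
      | zero => exact S'.nil_mem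
      | succ n ih =>
        rcases Nat.lt_or_ge n (2 * j + 2) with hn | hn
        · exact S'.mem_of_prefix (pre_prefix x (show n + 1 ≤ 2 * j + 2 by omega)) hQ'.root
        rw [pre_succ]
        by_cases hm : Moves false n
        · rw [hbranch n (by omega) hm, follow, if_pos (hvalid n hn ih)]
          have hmem := tagged_snoc_mem (hσ _ (tagged_mem_iff.2 (hvalid n hn ih))
            (by simpa using hm))
          obtain ⟨S₂, -, -, hrest⟩ := (hmem.2.2 (by simp; omega) (by simp; omega)).2.2
            (by simp; omega)
          rcases hrest (by simp; omega) with ⟨u, hu, -⟩ | ⟨S'', hS'', -, hmem'⟩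
          · cases hu
          · cases hS''
            exact hmem'
        · exact hQ'.children _ ih (by simp; omega) (by simpa using moves_not.2 hm) _
            (pre_succ x n ▸ hmemS (n + 1))
    refine exists_lift_play hσ x (fun n hn => hvalid n hn (hS' n)) (fun n hm => ?_)
      (fun h => absurd h h0) fun _ => (htagR S _ hQ).trans hRS
    rcases lt_trichotomy n (2 * j + 1) with hn | rfl | hn
    · exact hlow _ _ n (by omega) hm
    · rw [tagged_congr_first (t₁' := .plain) hl.le]
      exact hfirst.symm
    · rw [hbranch n hn.le hm, follow, if_pos (hvalid n hn (hS' n))]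

end FA.Determinacy
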