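import Fermat.Agent.Determinacy.Coverings

/-!
# Inverse limits of coverings

In a tower of coverings of growing levels each finite piece stabilises; the threads form a tree
covering all the others.
-/

set_option autoImplicit false

universe u

namespace FA.Determinacy

/-- A tower of coverings whose levels grow. -/
structure Tower : Type (u + 1) where
  /-- The starting level. -/
  k : ℕ
  /-- The moves. -/
  A : ℕ → Type u
  /-- The trees. -/
  T : ∀ i, GameTree (A i)
  /-- The steps. -/
  c : ∀ i, CoveringMap (T (i + 1)) (T i) (k + i)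

namespace Tower

/-- The tower without its first tree. -/
def shift (W : Tower.{u}) : Tower.{u} where
  k := W.k + 1
  A i := W.A (i + 1)
  T i := W.T (i + 1)
  c i := (W.c (i + 1)).mono (by omega)

/-- A thread of moves. -/
def Thread (W : Tower.{u}) : Type u :=
  {b : ∀ i, W.A i // ∀ i, (W.c i).proj (b (i + 1)) = b i}

variable (W : Tower.{u})

/-- A move at one height, above the length of the position, is part of a thread. -/
theorem exists_thread (m : ℕ) : ∀ (W : Tower.{u}) (p : ∀ i, List (W.A i))
    (_ : ∀ i, p i ∈ W.T i) (_ : ∀ i, (p (i + 1)).map (W.c i).proj = p i) (b : W.A m),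
    (p m).length < W.k + m → p m ++ [b] ∈ W.T m →
      ∃ t : ∀ i, W.A i, (∀ i, (W.c i).proj (t (i + 1)) = t i) ∧ (∀ i, p i ++ [t i] ∈ W.T i) ∧
        t m = b := by
  induction m with
  | zero =>
    intro W p hp hcomp b hlen hb
    have hl : ∀ i, (p i).length = (p 0).length := fun i => by
      induction i with
      | zero => rfl
      | succ i ih =>
        rw [← hcomp i, List.length_map] at ih
        exact ih
    have hstep : ∀ (i : ℕ) (a : W.A i), ∃ a' : W.A (i + 1), p i ++ [a] ∈ W.T i →
        p (i + 1) ++ [a'] ∈ W.T (i + 1) ∧ (W.c i).proj a' = a := fun i a => by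
      by_cases ha : p i ++ [a] ∈ W.T i
      · obtain ⟨q, hq, hqe⟩ := (W.c i).exists_lift _ ha (by
          rw [List.length_append, List.length_singleton, hl]
          omega)
        obtain ⟨q₁, q₂, rfl, h₁, h₂⟩ := List.map_eq_append_iff.1 hqe
        obtain ⟨a', q₃, rfl, rfl, hq₃⟩ := List.map_eq_cons_iff.1 h₂
        obtain rfl := List.map_eq_nil_iff.1 hq₃
        have : q₁ = p (i + 1) := (W.c i).lift_unique _ ((W.T (i + 1)).mem_of_append hq) _
          (hp (i + 1)) (by
            have := congrArg List.length h₁
            rw [List.length_map, hl] at this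
            omega) (h₁.trans (hcomp i).symm)
        exact ⟨a', fun _ => ⟨this ▸ hq, rfl⟩⟩
      · exact ⟨someMove (W.T (i + 1)) (p (i + 1)), fun h => absurd h ha⟩
    choose up hup using hstep
    let t : ∀ i, W.A i := fun i => Nat.rec (motive := W.A) b (fun i a => up i a) i
    have ht : ∀ i, p i ++ [t i] ∈ W.T i := fun i => by
      induction i with
      | zero => exact hb
      | succ i ih => exact (hup i _ ih).1
    exact ⟨t, fun i => (hup i _ (ht i)).2, ht, rfl⟩
  | succ m ih =>
    intro W p hp hcomp b hlen hb
    obtain ⟨t, ht1, ht2, ht3⟩ := ih W.shift (fun i => p (i + 1)) (fun i => hp (i + 1))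
      (fun i => hcomp (i + 1)) b (by simp only [shift]; omega) hb
    let t' : ∀ i, W.A i := fun i => match i with
      | 0 => (W.c 0).proj (t 0)
      | i + 1 => t i
    refine ⟨t', fun i => ?_, fun i => ?_, ht3⟩
    · cases i with
      | zero => rfl
      | succ i => exact ht1 i
    · cases i with
      | zero =>
        let a₁ : W.A 1 := t 0
        have h1 : p 1 ++ [a₁] ∈ W.T 1 := ht2 0
        have h2 := (W.c 0).map_mem _ h1
        simpa [hcomp 0, t', a₁] using h2
      | succ i => exact ht2 i

/-- The coordinate of a position. -/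
def evalPos (i : ℕ) (p : List W.Thread) : List (W.A i) :=
  p.map fun b => b.1 i

theorem map_evalPos (i : ℕ) (p : List W.Thread) :
    (W.evalPos (i + 1) p).map (W.c i).proj = W.evalPos i p := by
  simp only [evalPos, List.map_map]
  exact List.map_congr_left fun b _ => b.2 i

/-- The limit tree. -/
def limit : GameTree W.Thread where
  carrier := {p | ∀ i, W.evalPos i p ∈ W.T i}
  nil_mem' i := (W.T i).nil_mem
  mem_of_prefix' p q hpq hq i := (W.T i).mem_of_prefix (List.IsPrefix.map _ hpq) (hq i)
  exists_child' p hp := by
    obtain ⟨b, hb⟩ := (W.T (p.length + 1)).exists_child (hp (p.length + 1))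
    obtain ⟨t, ht1, ht2, -⟩ := exists_thread (p.length + 1) W (fun i => W.evalPos i p) hp
      (fun i => W.map_evalPos i p) b (by simp [evalPos]; omega) hb
    exact ⟨⟨t, ht1⟩, fun i => by simpa [evalPos] using ht2 i⟩

theorem mem_limit {p : List W.Thread} : p ∈ W.limit ↔ ∀ i, W.evalPos i p ∈ W.T i :=
  Iff.rfl

/-- Low positions are determined by one coordinate. -/
theorem evalPos_inj {p p' : List W.Thread} (hp : p ∈ W.limit) (hp' : p' ∈ W.limit) {i : ℕ}
    (hl : p.length ≤ W.k + i) (h : W.evalPos i p = W.evalPos i p') : p = p' := by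
  have hup : ∀ j, i ≤ j → W.evalPos j p = W.evalPos j p' := fun j hj => by
    induction hj with
    | refl => exact h
    | @step j hj ih =>
      refine (W.c j).lift_unique _ (hp (j + 1)) _ (hp' (j + 1)) ?_ ?_
      · rw [evalPos, List.length_map]
        exact hl.trans (Nat.add_le_add_left hj _)
      · rw [map_evalPos, map_evalPos, ih]
  have hall : ∀ j, W.evalPos j p = W.evalPos j p' := fun j => by
    rcases le_total i j with hj | hj
    · exact hup j hj
    · induction hj using Nat.decreasingInduction with
      | self => exact h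
      | of_succ j _ ih => rw [← W.map_evalPos j p, ← W.map_evalPos j p', ih]
  have hlen : p.length = p'.length := by simpa [evalPos] using congrArg List.length h
  refine List.ext_getElem hlen fun n h1 h2 => Subtype.ext (funext fun j => ?_)
  simpa [evalPos] using
    List.getElem_of_eq (hall j) (i := n) (by simpa [evalPos] using h1)

/-- Low positions of each tree come from the limit. -/
theorem exists_evalPos (i : ℕ) (q : List (W.A i)) (hq : q ∈ W.T i) (hl : q.length ≤ W.k + i) :
    ∃ p ∈ W.limit, W.evalPos i p = q := by
  induction q using List.reverseRecOn with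
  | nil => exact ⟨[], W.limit.nil_mem, rfl⟩
  | append_singleton q a ih =>
    rw [List.length_append, List.length_singleton] at hl
    obtain ⟨p, hp, rfl⟩ := ih ((W.T i).mem_of_append hq) (by omega)
    obtain ⟨t, ht1, ht2, ht3⟩ := exists_thread i W (fun j => W.evalPos j p) hp
      (fun j => W.map_evalPos j p) a (by omega) hq
    exact ⟨p ++ [⟨t, ht1⟩], fun j => by simpa [evalPos] using ht2 j,
      by simp [evalPos, ht3]⟩

open Classical in
/-- The restriction of a limit strategy to the low positions of one tree. -/
noncomputable def base (σ : List W.Thread → W.Thread) (i : ℕ) (q : List (W.A i)) : W.A i :=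
  if h : q.length < W.k + i ∧ ∃ p ∈ W.limit, W.evalPos i p = q then (σ h.2.choose).1 i
  else someMove (W.T i) q

/-- Strategies pulled down from a height. -/
noncomputable def descend (P : Bool) (σ : List W.Thread → W.Thread) :
    ℕ → ∀ i, List (W.A i) → W.A i
  | 0, i => W.base σ i
  | n + 1, i => (W.c i).φ P (descend P σ n (i + 1))

/-- The strategy induced on each tree. -/
noncomputable def induced (P : Bool) (σ : List W.Thread → W.Thread) (i : ℕ) (q : List (W.A i)) :
    W.A i :=
  W.descend P σ (q.length + 1) i q

variable {P : Bool} {σ : List W.Thread → W.Thread}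

theorem base_evalPos {p : List W.Thread} (hp : p ∈ W.limit) {i : ℕ} (hl : p.length < W.k + i) :
    W.base σ i (W.evalPos i p) = (σ p).1 i := by
  have h : (W.evalPos i p).length < W.k + i ∧ ∃ p' ∈ W.limit, W.evalPos i p' = W.evalPos i p :=
    ⟨by simpa [evalPos] using hl, p, hp, rfl⟩
  simp only [base, dif_pos h]
  have e : h.2.choose = p := (W.evalPos_inj hp h.2.choose_spec.1 hl.le h.2.choose_spec.2.symm).symm
  rw [e]

theorem isStrategy_descend (hσ : IsStrategy W.limit P σ) (n : ℕ) :
    ∀ i, IsStrategy (W.T i) P (W.descend P σ n i) := by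
  induction n with
  | zero =>
    intro i q hq hm
    simp only [descend, base]
    split_ifs with h
    · obtain ⟨h1, h2⟩ := h.2.choose_spec
      have hl : h.2.choose.length = q.length := by simpa [evalPos] using congrArg List.length h2
      have := hσ _ h1 (by rwa [hl]) i
      simp only [evalPos, List.map_append, List.map_cons, List.map_nil] at this h2
      rwa [h2] at this
    · exact someMove_mem _ hq
  | succ n ih => exact fun i => (W.c i).isStrategy P _ (ih (i + 1))

theorem descend_succ (hσ : IsStrategy W.limit P σ) (n : ℕ) : ∀ (i : ℕ) (q : List (W.A i)),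
    q ∈ W.T i → Moves P q.length → q.length < W.k + i + n →
      W.descend P σ (n + 1) i q = W.descend P σ n i q := by
  induction n with
  | zero =>
    intro i q hq hm hl
    obtain ⟨p, hp, rfl⟩ := W.exists_evalPos i q hq hl.le
    have hlp : p.length < W.k + i := by simpa [evalPos] using hl
    have e := (W.c i).eq_proj P _ (W.isStrategy_descend hσ 0 (i + 1)) _ (hp (i + 1))
      (by simpa [evalPos] using hlp) (by simpa [evalPos] using hm)
    simp only [descend] at e ⊢
    rw [← W.map_evalPos, e, W.base_evalPos hp (by omega), W.map_evalPos, W.base_evalPos hp hlp]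
    exact (σ p).2 i
  | succ n ih =>
    intro i q hq hm hl
    exact (W.c i).eq_of_agree P _ _ q.length (W.isStrategy_descend hσ _ _)
      (W.isStrategy_descend hσ _ _) (fun p hp hlp hmp => ih (i + 1) p hp hmp (by omega)) q hq le_rfl
      hm

theorem descend_eq_induced (hσ : IsStrategy W.limit P σ) {i : ℕ} {q : List (W.A i)}
    (hq : q ∈ W.T i) (hm : Moves P q.length) {n : ℕ} (hl : q.length < W.k + i + n) :
    W.descend P σ n i q = W.induced P σ i q := by
  have hstab : ∀ n n', n ≤ n' → q.length < W.k + i + n →
      W.descend P σ n' i q = W.descend P σ n i q := fun n n' h hn => by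
    induction n', h using Nat.le_induction with
    | base => rfl
    | succ n' hn' ih => rw [W.descend_succ hσ n' i q hq hm (by omega), ih]
  rcases le_total n (q.length + 1) with h | h
  · exact (hstab n _ h hl).symm
  · exact hstab _ n h (by omega)

theorem isStrategy_induced (hσ : IsStrategy W.limit P σ) (i : ℕ) :
    IsStrategy (W.T i) P (W.induced P σ i) :=
  fun q hq hm => W.isStrategy_descend hσ _ i q hq hm

theorem induced_eq_φ (hσ : IsStrategy W.limit P σ) {i : ℕ} {q : List (W.A i)} (hq : q ∈ W.T i)
    (hm : Moves P q.length) :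
    W.induced P σ i q = (W.c i).φ P (W.induced P σ (i + 1)) q := by
  rw [← W.descend_eq_induced hσ hq hm (n := q.length + 1 + 1) (by omega)]
  exact (W.c i).eq_of_agree P _ _ q.length (W.isStrategy_descend hσ _ _)
    (W.isStrategy_induced hσ _) (fun p hp hlp hmp => W.descend_eq_induced hσ hp hmp (by omega))
      q hq le_rfl hm

theorem induced_evalPos (hσ : IsStrategy W.limit P σ) {i : ℕ} {p : List W.Thread}
    (hp : p ∈ W.limit) (hm : Moves P p.length) (hl : p.length < W.k + i) :
    W.induced P σ i (W.evalPos i p) = (σ p).1 i := by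
  rw [← W.descend_eq_induced hσ (hp i) (by simpa [evalPos] using hm) (n := 0)
    (by simpa [evalPos] using hl)]
  exact W.base_evalPos hp hl

theorem descend_congr {σ' : List W.Thread → W.Thread} (hσ : IsStrategy W.limit P σ)
    (hσ' : IsStrategy W.limit P σ') {N : ℕ}
    (h : ∀ p ∈ W.limit, p.length ≤ N → Moves P p.length → σ p = σ' p) (n : ℕ) :
    ∀ (i : ℕ) (q : List (W.A i)), q ∈ W.T i → q.length ≤ N → Moves P q.length →
      W.descend P σ n i q = W.descend P σ' n i q := by
  induction n with
  | zero =>
    intro i q hq hl hm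
    simp only [descend, base]
    split_ifs with hc
    · obtain ⟨h1, h2⟩ := hc.2.choose_spec
      have hlc : hc.2.choose.length = q.length := by simpa [evalPos] using congrArg List.length h2
      rw [h _ h1 (by omega) (by rwa [hlc])]
    · rfl
  | succ n ih =>
    intro i q hq hl hm
    exact (W.c i).eq_of_agree P _ _ N (W.isStrategy_descend hσ _ _)
      (W.isStrategy_descend hσ' _ _) (ih (i + 1)) q hq hl hm

/-- Plays consistent with the induced strategies climb the tower. -/
theorem exists_thread_play (hσ : IsStrategy W.limit P σ) {x : ℕ → W.A 0}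
    (hx : x ∈ (W.T 0).body) (hcons : Consistent P (W.induced P σ 0) x) :
    ∃ y ∈ W.limit.body, Consistent P σ y ∧ (fun n => (y n).1 0) = x := by
  let Good : ℕ → Type u := fun i =>
    {z : ℕ → W.A i // z ∈ (W.T i).body ∧ Consistent P (W.induced P σ i) z}
  have hstep : ∀ i (z : Good i), ∃ z' : Good (i + 1), (W.c i).proj ∘ z'.1 = z.1 := fun i z => by
    obtain ⟨y, hy, hyc, e⟩ := (W.c i).exists_play P _ (W.isStrategy_induced hσ (i + 1)) z.1 z.2.1
      fun n hn => by rw [z.2.2 n hn, W.induced_eq_φ hσ (z.2.1 n) (by rwa [length_pre])]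
    exact ⟨⟨y, hy, hyc⟩, e⟩
  choose next hnext using hstep
  let z : ∀ i, Good i := fun i => Nat.rec (motive := Good) ⟨x, hx, hcons⟩ next i
  let y : ℕ → W.Thread := fun n =>
    ⟨fun i => (z i).1 n, fun i => congrFun (hnext i (z i)) n⟩
  have heval : ∀ i n, W.evalPos i (pre y n) = pre (z i).1 n := fun i n => map_pre _ y n
  have hy : y ∈ W.limit.body := fun n i => heval i n ▸ (z i).2.1 n
  refine ⟨y, hy, fun n hn => ?_, rfl⟩
  have h1 : pre y n ++ [σ (pre y n)] ∈ W.limit := hσ _ (hy n) (by rwa [length_pre])
  refine pre_succ_inj (W.evalPos_inj (hy (n + 1)) h1 (i := n + 1) (by rw [length_pre]; omega) ?_)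
  rw [heval, pre_succ, (z (n + 1)).2.2 n hn, ← heval (n + 1) n,
    W.induced_evalPos hσ (hy n) (by rwa [length_pre]) (by rw [length_pre]; omega)]
  simp [evalPos]

/-- **The limit of the tower covers its bottom.** -/
noncomputable def limitMap : CoveringMap W.limit (W.T 0) W.k where
  proj b := b.1 0
  map_mem _ hp := hp 0
  exists_lift q hq hl := W.exists_evalPos 0 q hq hl
  lift_unique _ hp _ hp' hl h := W.evalPos_inj hp hp' (i := 0) hl h
  φ P σ := W.induced P σ 0
  isStrategy _ _ hσ := W.isStrategy_induced hσ 0
  eq_of_agree _ _ _ _ hσ hσ' h q hq hl hm := W.descend_congr hσ hσ' h _ 0 q hq hl hm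
  eq_proj _ _ hσ _ hp hl hm := W.induced_evalPos hσ (i := 0) hp hm hl
  exists_play _ _ hσ _ hx hcons := W.exists_thread_play hσ hx hcons

end Tower

end FA.Determinacy
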