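import Fermat.Agent.Determinacy.AuxSecond
import Fermat.Agent.Determinacy.Limit
import Mathlib.MeasureTheory.Constructions.BorelSpace.Basic

/-!
# Unravelling Borel payoffs

Closed payoffs unravel by the auxiliary game, countable unions by limits of coverings.
-/

set_option autoImplicit false

universe u

namespace FA.Determinacy

variable {A : Type u}

open Classical in
/-- **The auxiliary game covers.** -/
noncomputable def auxCovering (T : GameTree A) (U : Set (List A)) (j : ℕ)
    (hU : ∀ p q, p ∈ U → p <+: q → q ∈ U) : CoveringMap (auxTree T U j hU) T (2 * j) where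
  proj := Prod.fst
  map_mem _ hp := map_fst_mem hp
  exists_lift q hq hl :=
    ⟨tagged j .plain .plain q, tagged_mem_iff.2 (valid_low hq hl), map_fst_tagged⟩
  lift_unique := by
    rintro _ ⟨t₀, t₁, q, -, rfl⟩ _ ⟨s₀, s₁, r, -, rfl⟩ hl h
    rw [map_fst_tagged, map_fst_tagged] at h
    subst h
    exact tagged_congr_low (by simpa using hl)
  φ P σ := if P = true then firstMap T U j σ else secondMap T U j σ
  isStrategy P σ hσ := by
    cases P
    · simpa using isStrategy_secondMap hσ
    · simpa using isStrategy_firstMap hσ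
  eq_of_agree P σ σ' n _ _ h q hq hl hm := by
    cases P
    · simpa using secondMap_congr h hq hl hm
    · simpa using firstMap_congr h hq hl hm
  eq_proj P σ hσ p hp hl hm := by
    obtain ⟨t₀, t₁, q, hv, rfl⟩ := hp
    rw [map_fst_tagged]
    rw [length_tagged] at hl
    cases P
    · simp only [Bool.false_eq_true, ↓reduceIte, secondMap, if_pos hl.le]
      exact follow_low hv.1 hl.le
    · simp only [↓reduceIte, firstMap, if_pos hl.le]
      exact follow_low hv.1 hl.le
  exists_play P σ hσ x hx hcons := by
    cases P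
    · exact exists_play_second hσ hx (by simpa using hcons)
    · exact exists_play_first hσ hx (by simpa using hcons)

/-- **Closed payoffs unravel at every level.** -/
theorem unravels_of_isOpenOn_compl {T : GameTree A} {X : Set (ℕ → A)} (h : IsOpenOn T Xᶜ) (k : ℕ) :
    Unravels T k X := by
  refine ⟨_, _, (auxCovering T (securedSet T Xᶜ) k fun _ _ => securedSet_mono).mono
    (by omega : k ≤ 2 * k), ?_⟩
  exact isClopenOn_preimage fun x hx => by simpa using (h.mem_iff hx).not

/-- Unravels after every map of trees, at every level. -/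
def UnravelsAll (T : GameTree A) (X : Set (ℕ → A)) : Prop :=
  ∀ (B : Type u) (S : GameTree B) (π : B → A), (∀ p ∈ S, p.map π ∈ T) →
    ∀ k, Unravels S k {y | π ∘ y ∈ X}

theorem unravelsAll_of_isOpenOn {T : GameTree A} {X : Set (ℕ → A)} (h : IsOpenOn T X) :
    UnravelsAll T X := fun B S π hπ k => by
  have h' : IsOpenOn S ({y | π ∘ y ∈ X}ᶜ)ᶜ := by
    rw [compl_compl]
    exact h.preimage π hπ
  simpa using (unravels_of_isOpenOn_compl h' k).compl

theorem UnravelsAll.compl {T : GameTree A} {X : Set (ℕ → A)} (h : UnravelsAll T X) :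
    UnravelsAll T Xᶜ :=
  fun B S π hπ k => (h B S π hπ k).compl

/-- A tree mapped into the given one. -/
structure Stage (T : GameTree A) : Type (u + 1) where
  /-- The moves. -/
  B : Type u
  /-- The tree. -/
  tree : GameTree B
  /-- The map. -/
  π : B → A
  mem : ∀ p ∈ tree, p.map π ∈ T

/-- **Countable unions unravel.** -/
theorem UnravelsAll.iUnion {T : GameTree A} {X : ℕ → Set (ℕ → A)}
    (h : ∀ i, UnravelsAll T (X i)) : UnravelsAll T (⋃ i, X i) := by
  intro B S π hπ k
  have hstep : ∀ (i : ℕ) (st : Stage T), ∃ (B' : Type u) (S' : GameTree B')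
      (c : CoveringMap S' st.tree (k + i)), IsClopenOn S' {y | st.π ∘ (c.proj ∘ y) ∈ X i} :=
    fun i st => h i st.B st.tree st.π st.mem (k + i)
  choose B' S' c hc using hstep
  let next : ℕ → Stage T → Stage T := fun i st => ⟨B' i st, S' i st, st.π ∘ (c i st).proj,
    fun p hp => by
      rw [← List.map_map]
      exact st.mem _ ((c i st).map_mem p hp)⟩
  let stage : ℕ → Stage T := fun i => Nat.rec ⟨B, S, π, hπ⟩ next i
  let W : Tower.{u} := ⟨k, fun i => (stage i).B, fun i => (stage i).tree,
    fun i => c i (stage i)⟩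
  have heval : ∀ (i : ℕ) (b : W.Thread), (stage i).π (b.1 i) = π (b.1 0) := fun i b => by
    induction i with
    | zero => rfl
    | succ i ih =>
      change (stage i).π ((c i (stage i)).proj (b.1 (i + 1))) = _
      rw [show (c i (stage i)).proj (b.1 (i + 1)) = b.1 i from b.2 i]
      exact ih
  have hplay : ∀ (i : ℕ) (y : ℕ → W.Thread),
      (stage i).π ∘ ((c i (stage i)).proj ∘ fun n => (y n).1 (i + 1)) =
        π ∘ fun n => (y n).1 0 := fun i y => funext fun n => heval (i + 1) (y n)
  let Y : Set (ℕ → W.Thread) := {y | ∃ i, π ∘ (fun n => (y n).1 0) ∈ X i}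
  have hY : IsOpenOn W.limit Y := by
    rintro y hy ⟨i, hi⟩
    obtain ⟨n, hn⟩ := ((hc i (stage i)).1.preimage (S := W.limit) (fun b => b.1 (i + 1))
      fun p hp => hp (i + 1)) y hy (by
        change (stage i).π ∘ ((c i (stage i)).proj ∘ fun n => (y n).1 (i + 1)) ∈ X i
        rwa [hplay])
    refine ⟨n, fun z hz hzn => ⟨i, ?_⟩⟩
    have hz' : (stage i).π ∘ ((c i (stage i)).proj ∘ fun n => (z n).1 (i + 1)) ∈ X i :=
      hn z hz hzn
    rwa [hplay] at hz'
  obtain ⟨C, R, d, hd⟩ := (unravels_of_isOpenOn_compl (X := Yᶜ) (by rwa [compl_compl]) k).compl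
  refine ⟨C, R, d.comp W.limitMap, ?_⟩
  convert hd using 1
  ext z
  simp only [Set.mem_ofPred_eq, Set.mem_iUnion, compl_compl, Y]
  rfl

/-- Open sets of the product are open in every tree. -/
theorem isOpenOn_of_isOpen [TopologicalSpace A] {X : Set (ℕ → A)} (h : IsOpen X)
    (T : GameTree A) : IsOpenOn T X := by
  intro x _ hx
  obtain ⟨I, u, hu, hsub⟩ := isOpen_pi_iff.1 h x hx
  refine ⟨I.sup id + 1, fun y _ hy => hsub fun i hi => ?_⟩
  have hi' : i < I.sup id + 1 := Nat.lt_succ_of_le (Finset.le_sup (f := id) hi)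
  have : y i = x i := by simpa [pre] using List.getElem_of_eq hy (i := i) (by simpa using hi')
  rw [this]
  exact (hu i hi).2

/-- **Borel payoffs unravel.** -/
theorem unravelsAll_of_borel [TopologicalSpace A] (T : GameTree A) {X : Set (ℕ → A)}
    (hX : @MeasurableSet _ (borel (ℕ → A)) X) : UnravelsAll T X := by
  induction X, hX using MeasurableSpace.generateFrom_induction with
  | hC t ht _ => exact unravelsAll_of_isOpenOn (isOpenOn_of_isOpen ht T)
  | empty => exact unravelsAll_of_isOpenOn fun x _ hx => hx.elim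
  | compl t _ ih => exact ih.compl
  | iUnion f _ ih => exact UnravelsAll.iUnion ih

end FA.Determinacy
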