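import Fermat.Agent.Determinacy.Games

/-!
# Coverings of game trees

Martin's coverings, with projections acting move by move.
-/

set_option autoImplicit false

universe u

namespace FA.Determinacy

variable {A B C : Type u}

/-- A covering of a tree which changes nothing up to level `k`. -/
structure CoveringMap (S : GameTree B) (T : GameTree A) (k : ℕ) : Type u where
  /-- The projection of moves. -/
  proj : B → A
  map_mem : ∀ p ∈ S, p.map proj ∈ T
  exists_lift : ∀ q ∈ T, q.length ≤ k → ∃ p ∈ S, p.map proj = q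
  lift_unique : ∀ p ∈ S, ∀ p' ∈ S, p.length ≤ k → p.map proj = p'.map proj → p = p'
  /-- The transfer of strategies. -/
  φ : Bool → (List B → B) → List A → A
  isStrategy : ∀ P σ, IsStrategy S P σ → IsStrategy T P (φ P σ)
  eq_of_agree : ∀ P σ σ' n, IsStrategy S P σ → IsStrategy S P σ' →
    (∀ p ∈ S, p.length ≤ n → Moves P p.length → σ p = σ' p) →
      ∀ q ∈ T, q.length ≤ n → Moves P q.length → φ P σ q = φ P σ' q
  eq_proj : ∀ P σ, IsStrategy S P σ → ∀ p ∈ S, p.length < k → Moves P p.length →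
    φ P σ (p.map proj) = proj (σ p)
  exists_play : ∀ P σ, IsStrategy S P σ → ∀ x ∈ T.body, Consistent P (φ P σ) x →
    ∃ y ∈ S.body, Consistent P σ y ∧ proj ∘ y = x

variable {S : GameTree B} {T : GameTree A} {R : GameTree C} {k : ℕ}

theorem CoveringMap.comp_mem_body (c : CoveringMap S T k) {y : ℕ → B} (hy : y ∈ S.body) :
    c.proj ∘ y ∈ T.body := fun n => map_pre c.proj y n ▸ c.map_mem _ (hy n)

/-- A covering of level `k` is one of every lower level. -/
def CoveringMap.mono (c : CoveringMap S T k) {j : ℕ} (h : j ≤ k) : CoveringMap S T j where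
  proj := c.proj
  map_mem := c.map_mem
  exists_lift q hq hl := c.exists_lift q hq (hl.trans h)
  lift_unique p hp p' hp' hl := c.lift_unique p hp p' hp' (hl.trans h)
  φ := c.φ
  isStrategy := c.isStrategy
  eq_of_agree := c.eq_of_agree
  eq_proj P σ hσ p hp hl := c.eq_proj P σ hσ p hp (hl.trans_le h)
  exists_play := c.exists_play

/-- The composite of coverings. -/
def CoveringMap.comp (d : CoveringMap R S k) (c : CoveringMap S T k) : CoveringMap R T k where
  proj := c.proj ∘ d.proj
  map_mem p hp := by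
    rw [← List.map_map]
    exact c.map_mem _ (d.map_mem p hp)
  exists_lift q hq hl := by
    obtain ⟨p, hp, rfl⟩ := c.exists_lift q hq hl
    obtain ⟨r, hr, rfl⟩ := d.exists_lift p hp (by simpa using hl)
    exact ⟨r, hr, by rw [List.map_map]⟩
  lift_unique p hp p' hp' hl h := by
    rw [← List.map_map, ← List.map_map] at h
    exact d.lift_unique p hp p' hp' hl
      (c.lift_unique _ (d.map_mem p hp) _ (d.map_mem p' hp') (by simpa using hl) h)
  φ P σ := c.φ P (d.φ P σ)
  isStrategy P σ hσ := c.isStrategy P _ (d.isStrategy P σ hσ)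
  eq_of_agree P σ σ' n hσ hσ' h := c.eq_of_agree P _ _ n (d.isStrategy P σ hσ)
    (d.isStrategy P σ' hσ') fun p hp hl hm => d.eq_of_agree P σ σ' n hσ hσ' h p hp hl hm
  eq_proj P σ hσ p hp hl hm := by
    rw [← List.map_map, c.eq_proj P _ (d.isStrategy P σ hσ) _ (d.map_mem p hp) (by simpa using hl)
      (by simpa using hm), d.eq_proj P σ hσ p hp hl hm]
    rfl
  exists_play P σ hσ x hx hcons := by
    obtain ⟨y, hy, hyc, rfl⟩ := c.exists_play P _ (d.isStrategy P σ hσ) x hx hcons
    obtain ⟨z, hz, hzc, rfl⟩ := d.exists_play P σ hσ y hy hyc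
    exact ⟨z, hz, hzc, rfl⟩

/-- Preimages of open payoffs are open. -/
theorem IsOpenOn.preimage {X : Set (ℕ → A)} (h : IsOpenOn T X) (π : B → A)
    (hπ : ∀ p ∈ S, p.map π ∈ T) : IsOpenOn S {y | π ∘ y ∈ X} := by
  intro y hy hX
  have hbody : ∀ z ∈ S.body, π ∘ z ∈ T.body := fun z hz n => map_pre π z n ▸ hπ _ (hz n)
  obtain ⟨n, hn⟩ := h _ (hbody y hy) hX
  exact ⟨n, fun z hz hzn => hn _ (hbody z hz) (by rw [← map_pre, ← map_pre, hzn])⟩

theorem IsClopenOn.preimage {X : Set (ℕ → A)} (h : IsClopenOn T X) (π : B → A)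
    (hπ : ∀ p ∈ S, p.map π ∈ T) : IsClopenOn S {y | π ∘ y ∈ X} :=
  ⟨h.1.preimage π hπ, h.2.preimage π hπ⟩

/-- Some covering of level `k` makes the payoff clopen. -/
def Unravels (T : GameTree A) (k : ℕ) (X : Set (ℕ → A)) : Prop :=
  ∃ (B : Type u) (S : GameTree B) (c : CoveringMap S T k),
    IsClopenOn S {y | c.proj ∘ y ∈ X}

theorem Unravels.compl {X : Set (ℕ → A)} (h : Unravels T k X) : Unravels T k Xᶜ := by
  obtain ⟨B, S, c, h1, h2⟩ := h
  refine ⟨B, S, c, h2, ?_⟩
  convert h1 using 1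
  ext y
  simp

/-- **Unravelled payoffs are determined.** -/
theorem Unravels.determined {X : Set (ℕ → A)} (h : Unravels T k X) : Determined T X := by
  obtain ⟨B, S, c, hS⟩ := h
  obtain ⟨P, σ, hσ, hwin⟩ := determined_of_isOpenOn_or_compl (.inl hS.1)
  refine ⟨P, c.φ P σ, c.isStrategy P σ hσ, fun x hx hcons => ?_⟩
  obtain ⟨y, hy, hyc, rfl⟩ := c.exists_play P σ hσ x hx hcons
  exact hwin y hy hyc

end FA.Determinacy
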